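import Fermat.Agent.RT.Glue.Rep
import Fermat.Agent.NewformLocal.Assembly

/-!
# A newform with the eigen system of a point has the trace of the glued representation

The representation of any newform of level dividing `L ^ 2` whose coefficients outside `S` are the
values of a point has the trace of that point of the glued representation, by density of Frobenius
elements.
-/

set_option autoImplicit false

noncomputable section

open IsLocalRing Polynomial CongruenceSubgroup

namespace Fermat.Agent.RT.Glue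

open GaloisReps (AbsGal FullHecke HeckeGaloisModel powerTrace)
open NewformLocal (UnipotentAt ToricSquareAt)

/-- A realisation of the eigen system of a newform over an extension of `O`. -/
structure Realisation (O : Type) [CommRing O] [IsDomain O] [IsDiscreteValuationRing O]
    (p : ℕ) [Fact p.Prime] {M : ℕ} [NeZero M] {g : CuspForm (Gamma0 M) 2} (hg : g.IsNewform)
    (e : KBar O ≃+* ℂ) : Type 1 where
  R : Type
  [commR : CommRing R]
  [domR : IsDomain R]
  [dvrR : IsDiscreteValuationRing R]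
  [char0R : CharZero R]
  [algR : Algebra O R]
  [finR : Module.Finite O R]
  [complR : IsAdicComplete (maximalIdeal R) R]
  [finResR : Finite (ResidueField R)]
  j : R →+* KBar O
  j_injective : Function.Injective j
  j_algebraMap : j.comp (algebraMap O R) = algebraMap O (KBar O)
  p_mem : (p : R) ∈ maximalIdeal R
  ι : ℤ_[p] →+* R
  θ' : FullHecke M →+* R
  emb_θ' : ∀ t, e (j (θ' t)) = ConductorLevel.eigenChar hg.1 ∅ t

attribute [instance] Realisation.commR Realisation.domR Realisation.dvrR Realisation.char0R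
  Realisation.algR Realisation.finR Realisation.complR Realisation.finResR

variable {O : Type} [CommRing O] [IsDomain O] [IsDiscreteValuationRing O]
  {p : ℕ} [Fact p.Prime] {M : ℕ} [NeZero M] {g : CuspForm (Gamma0 M) 2} {hg : g.IsNewform}
  {e : KBar O ≃+* ℂ}

/-- Every newform is realised. -/
theorem nonempty_realisation [IsAdicComplete (maximalIdeal O) O] [Finite (ResidueField O)]
    [CharZero O] (hp : (p : O) ∈ maximalIdeal O) (hg : g.IsNewform) (e : KBar O ≃+* ℂ) :
    Nonempty (Realisation O p hg e) := by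
  have : Module.Finite ℤ (FullHecke M) := IntegralStructure.heckeAlgebra_finite M 2 ∅
  obtain ⟨R, i1, i2, i3, i4, i5, i6, i7, i8, i9, j, θ', -, hjinj, hcomm, hθ'⟩ :=
    GaloisReps.exists_coeffExt O (e.symm.toRingHom.comp (ConductorLevel.eigenChar hg.1 ∅))
  have hpR : (p : R) ∈ maximalIdeal R := by
    rw [← map_natCast (algebraMap O R) p]
    exact map_nonunit (algebraMap O R) _ hp
  obtain ⟨ι⟩ := GaloisReps.exists_padicHom R hpR
  refine ⟨{ R := R, j := j, j_injective := hjinj, j_algebraMap := hcomm, p_mem := hpR, ι := ι,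
            θ' := θ', emb_θ' := fun t => ?_ }⟩
  rw [← RingHom.comp_apply j θ', hθ']
  exact e.apply_symm_apply _

/-- The trace over the algebraic closure. -/
def Realisation.trace (r : Realisation O p hg e) (D : HeckeGaloisModel M p) (σ : AbsGal) : KBar O :=
  r.j (LinearMap.trace r.R _ (D.eigenAction r.ι r.θ' σ))

omit [IsDiscreteValuationRing O] [Fact p.Prime] in
/-- A finite `O`-algebra maps into the elements integral over `O`. -/
theorem isIntegral_of_algHom {R : Type} [CommRing R] [Algebra O R] [Module.Finite O R]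
    (j : R →+* KBar O) (hj : j.comp (algebraMap O R) = algebraMap O (KBar O)) (x : R) :
    IsIntegral O (j x) :=
  (Algebra.IsIntegral.isIntegral (R := O) x).map
    ({ j with commutes' := fun c => RingHom.congr_fun hj c } : R →ₐ[O] KBar O)

theorem Realisation.trace_congr (r : Realisation O p hg e) (D : HeckeGaloisModel M p) {n : ℕ}
    {g₁ g₂ : AbsGal} (h : (D.gal (g₁⁻¹ * g₂)).map (PadicInt.toZModPow n) = 1) :
    ∃ x, IsIntegral O x ∧ r.trace D g₂ - r.trace D g₁ = (p : KBar O) ^ n * x := by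
  obtain ⟨a, ha⟩ := D.eigenMatrix_congr r.ι r.θ' h 0 0
  obtain ⟨b, hb⟩ := D.eigenMatrix_congr r.ι r.θ' h 1 1
  refine ⟨r.j (a + b), isIntegral_of_algHom r.j r.j_algebraMap _, ?_⟩
  rw [Realisation.trace, Realisation.trace, ← map_sub, ← map_natCast r.j, ← map_pow, ← map_mul,
    LinearMap.trace_eq_matrix_trace r.R (D.eigenBasis r.θ'),
    LinearMap.trace_eq_matrix_trace r.R (D.eigenBasis r.θ'), mul_add, ← ha, ← hb]
  refine congrArg r.j ?_
  rw [Matrix.trace_fin_two, Matrix.trace_fin_two, add_sub_add_comm]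
  rfl

/-- The traces of the powers of a Frobenius element at a good prime are given by the coefficient. -/
theorem Realisation.trace_frobenius_good (r : Realisation O p hg e) (D : HeckeGaloisModel M p)
    {ℓ : ℕ} (hℓ : ℓ.Prime) (hℓM : ¬ ℓ ∣ M * p) {A : ValuationSubring (AlgebraicClosure ℚ)}
    (hA : A.LiesOverPrime ℓ) {s : AbsGal} (hs : A.IsFrobeniusAt s ℓ) (i : ℕ) :
    r.trace D (s ^ i) =
      powerTrace (e.symm (ModularFormClass.qCoeff g ℓ)) (ℓ : KBar O) i := by
  have hℓM' : ¬ ℓ ∣ M := fun h => hℓM (dvd_mul_of_dvd_left h p)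
  have hcoef : r.j (r.θ' (HeckeDuality.heckeOp M 2 ℓ hℓ)) =
      e.symm (ModularFormClass.qCoeff g ℓ) := by
    refine e.injective ?_
    rw [r.emb_θ', e.apply_symm_apply, HeckeDuality.heckeOp, dif_neg hℓM']
    exact ConductorLevel.eigenChar_T hg.1 hℓ hℓM' _
  rw [Realisation.trace, map_pow, GaloisReps.trace_pow_of_charpoly
    (D.finrank_eigenspace_domain r.θ') _ _ ℓ
    (D.charpoly_eigenAction_frobenius r.ι r.θ' r.p_mem hℓ hℓM hA hs) i,
    GaloisReps.map_powerTrace, hcoef, map_natCast]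

/-- The squared trace of a Frobenius element at a prime dividing the level once. -/
theorem Realisation.trace_sq_frobenius (r : Realisation O p hg e) (D : HeckeGaloisModel M p)
    {v : ℕ} (hv : v.Prime) (hvp : v ≠ p) (hvM : v ∣ M)
    (hT : ToricSquareAt D v)
    {A : ValuationSubring (AlgebraicClosure ℚ)} (hA : A.LiesOverPrime v) {σ : AbsGal}
    (hσ : A.IsFrobeniusAt σ v) : r.trace D σ ^ 2 = ((v : KBar O) + 1) ^ 2 := by
  have hR : M / v ∣ M := Nat.div_dvd_of_dvd hvM
  have hRq : M / v * v = M := Nat.div_mul_cancel hvM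
  have : NeZero (M / v) := ⟨fun h => NeZero.ne M (by rw [← hRq, h, zero_mul])⟩
  obtain ⟨t, ht, htg⟩ := NewformLocal.exists_killsOld_ne_zero hg hR
    (Nat.div_lt_self (Nat.pos_of_ne_zero (NeZero.ne M)) hv.one_lt).ne
  obtain ⟨ℓ, hℓ, hℓT, hne⟩ := NewformLocal.exists_coeff_ne_succ hg.1 (M * p).primeFactors
  have hℓN : ¬ ℓ ∣ M * p := fun h => hℓT (Nat.mem_primeFactors.mpr
    ⟨hℓ, h, mul_ne_zero (NeZero.ne M) (Fact.out : p.Prime).ne_zero⟩)
  have hθt : r.θ' (NewformLocal.toricOp t hℓ) ≠ 0 := fun h0 => by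
    have h2 := r.emb_θ' (NewformLocal.toricOp t hℓ)
    rw [h0, map_zero, map_zero, NewformLocal.toricOp, map_mul, map_sub, map_natCast,
      NewformLocal.eigenChar_toFull, eq_comm, mul_eq_zero] at h2
    have hℓM : ¬ ℓ ∣ M := fun h => hℓN (dvd_mul_of_dvd_left h p)
    have h3 : ConductorLevel.eigenChar hg.1 ∅ (HeckeDuality.heckeOp M 2 ℓ hℓ) =
        ModularFormClass.qCoeff g ℓ := by
      rw [HeckeDuality.heckeOp, dif_neg hℓM]
      exact ConductorLevel.eigenChar_T hg.1 hℓ hℓM _
    rw [h3, sub_eq_zero, Nat.cast_add, Nat.cast_one] at h2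
    exact h2.elim htg hne
  have key := NewformLocal.charpoly_frobenius_bad D r.ι r.θ' r.p_mem hv hvp hR hRq hT t ht
    hℓ hθt hA hσ
  have htr : r.trace D σ = r.j ((v : r.R) + 1) ∨ r.trace D σ = r.j (-((v : r.R) + 1)) := by
    rw [Realisation.trace, LinearMap.trace_eq_matrix_trace r.R (D.eigenBasis r.θ'),
      Matrix.trace_eq_neg_charpoly_coeff, LinearMap.charpoly_toMatrix]
    rcases key with h | h
    · exact Or.inl (by rw [h]; simp [Fintype.card_fin])
    · exact Or.inr (by rw [h]; simp [Fintype.card_fin])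
  rcases htr with h | h <;> rw [h] <;> simp [add_comm]
  ring

section Glued

variable [IsAdicComplete (maximalIdeal O) O] [Finite (ResidueField O)] [CharZero O]
  {L : ℕ} [NeZero L] {Δ : Type} [CommGroup Δ] [Finite Δ] {ψ : (ZMod L)ˣ →* Δ} {S : Finset ℕ}
  {abar : ℕ → ResidueField O}
  {H : HeckeModule L ψ S abar} {hS : ∀ q : ℕ, q.Prime → q ∣ L → q ∈ S}
  [IsLocalRing H.algebra] {D : ∀ (M : ℕ) [NeZero M], HeckeGaloisModel M p}
  {pt : ∀ θ : H.algebra →ₐ[O] KBar O, Point (p := p) H hS θ.toRingHom} (G : Glued D pt)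

omit [Finite Δ] in
/-- **The glued traces at a point are those of a newform with the eigensystem of the point.** -/
theorem Glued.trace_realisation (hp : (p : O) ∈ maximalIdeal O) (hpS : p ∈ S)
    (r : Realisation O p hg e) (hdvd : M ∣ L ^ 2) (θ : H.algebra →ₐ[O] KBar O)
    (hcoef : ∀ (ℓ : ℕ) (hℓ : ℓ.Prime) (hℓS : ℓ ∉ S),
      ModularFormClass.qCoeff g ℓ = e (θ (sA H hS hℓ hℓS)))
    (σ : AbsGal) : θ (G.R σ).trace = r.trace (D M) σ := by
  rw [G.trace_eq]
  refine sub_eq_zero.1 (eq_zero_of_forall_integral hp fun n => ?_)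
  obtain ⟨F, hF, hlev⟩ := exists_levelField (L := L) D n
  obtain ⟨ℓ, hℓ, hℓS, A, hA, s, hs, i, hi⟩ := GaloisReps.frobeniusDensity F inferInstance σ S
  have hfix := GaloisReps.inv_mul_fixes (g := s ^ i) (h := σ) (fun x hx => (hi x hx).symm)
  obtain ⟨a, ha, ea⟩ := (pt θ).trace_congr D (n := n) (g := s ^ i) (h := σ)
    (hlev _ hfix _ (pt θ).dvd)
  obtain ⟨b, hb, eb⟩ := r.trace_congr (D M) (n := n) (g₁ := s ^ i) (g₂ := σ)
    (hlev _ hfix _ hdvd)
  have hℓM : ¬ ℓ ∣ M * p := fun h => (hℓ.dvd_mul.1 h).elim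
    (fun h => hℓS (hS ℓ hℓ (hℓ.dvd_of_dvd_pow (h.trans hdvd))))
    (fun h => hℓS (by rw [(Nat.prime_dvd_prime_iff_eq hℓ Fact.out).1 h]; exact hpS))
  have hpow : θ (powerTrace (sA H hS hℓ hℓS) (ℓ : H.algebra) i) = r.trace (D M) (s ^ i) := by
    rw [r.trace_frobenius_good (D M) hℓ hℓM hA hs i, hcoef ℓ hℓ hℓS, e.symm_apply_apply,
      ← map_natCast θ.toRingHom ℓ]
    exact GaloisReps.map_powerTrace θ.toRingHom _ _ i
  rw [(pt θ).trace_frobenius_pow D hpS hℓ hℓS hA hs i] at ea
  refine ⟨a - b, ha.sub hb, ?_⟩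
  rw [mul_sub, ← ea, ← eb, ← hpow]
  show _ = (_ - θ _) - (_ - θ _)
  ring

end Glued

end Fermat.Agent.RT.Glue
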