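import Fermat.Agent.RT.Glue.Basic

/-!
# Residual properties of the representations at the points
-/

set_option autoImplicit false

noncomputable section

open IsLocalRing Module

namespace Fermat.Agent.RT.Glue

open GaloisReps (AbsGal HeckeGaloisModel)

/-- On a plane with an invariant line every commutator has trace zero against the representation. -/
theorem trace_commutator_eq_zero {K V G : Type} [Field K] [AddCommGroup V] [Module K V]
    [Monoid G] (r : G →* Module.End K V) (hV : finrank K V = 2) (W : Submodule K V)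
    (hW : ∀ σ, ∀ x ∈ W, r σ x ∈ W) (hbot : W ≠ ⊥) (htop : W ≠ ⊤) (k g h : G) :
    LinearMap.trace K V (r (k * g * h)) = LinearMap.trace K V (r (g * k * h)) := by
  have : FiniteDimensional K V := Module.finite_of_finrank_eq_succ hV
  have hW1 : finrank K W = 1 := by
    have h1 : 0 < finrank K W :=
      Nat.pos_of_ne_zero fun h0 => hbot (Submodule.finrank_eq_zero.1 h0)
    have h2 := Submodule.finrank_lt htop
    omega
  have hQ : finrank K (V ⧸ W) = 1 := by
    have := W.finrank_quotient_add_finrank
    omega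
  obtain ⟨w, hw0, hw⟩ := finrank_eq_one_iff'.1 hW1
  obtain ⟨q, hq0, hq⟩ := finrank_eq_one_iff'.1 hQ
  obtain ⟨y, rfl⟩ := Submodule.Quotient.mk_surjective W q
  set M := r k * r g - r g * r k
  -- the representation is scalar on `W`
  have hscal : ∀ σ, ∃ a : K, ∀ x ∈ W, r σ x = a • x := fun σ => by
    obtain ⟨a, ha⟩ := hw ⟨_, hW σ w.1 w.2⟩
    refine ⟨a, fun x hx => ?_⟩
    obtain ⟨c, hc⟩ := hw ⟨x, hx⟩
    have ha' : a • w.1 = r σ w.1 := congrArg Subtype.val ha
    have hc' : c • w.1 = x := congrArg Subtype.val hc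
    rw [← hc', map_smul, ← ha', smul_comm]
  -- so commutators kill `W`
  have hMW : ∀ x ∈ W, M x = 0 := fun x hx => by
    obtain ⟨a, ha⟩ := hscal k
    obtain ⟨b, hb⟩ := hscal g
    simp only [M, LinearMap.sub_apply, Module.End.mul_apply, hb x hx, ha x hx, map_smul, smul_smul]
    rw [mul_comm, sub_self]
  have hscal' : ∀ σ, ∃ a : K, ∀ x, r σ x - a • x ∈ W := fun σ => by
    obtain ⟨a, ha⟩ := hq (Submodule.Quotient.mk (r σ y))
    refine ⟨a, fun x => ?_⟩
    obtain ⟨c, hc⟩ := hq (Submodule.Quotient.mk x)
    rw [← Submodule.Quotient.mk_smul, Submodule.Quotient.eq] at ha hc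
    have e : r σ x - a • x =
        a • (c • y - x) - r σ (c • y - x) - c • (a • y - r σ y) := by
      rw [map_sub, map_smul, smul_sub, smul_sub, smul_comm c a]
      abel
    rw [e]
    exact sub_mem (sub_mem (W.smul_mem _ hc) (hW σ _ hc)) (W.smul_mem _ ha)
  -- and map everything into `W`
  have hMV : ∀ x, M x ∈ W := fun x => by
    obtain ⟨a, ha⟩ := hscal' k
    obtain ⟨b, hb⟩ := hscal' g
    have e : M x = r k (r g x - b • x) + b • (r k x - a • x) -
        (r g (r k x - a • x) + a • (r g x - b • x)) := by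
      simp only [M, LinearMap.sub_apply, Module.End.mul_apply, map_sub, map_smul, smul_sub,
        smul_comm b a]
      abel
    rw [e]
    exact sub_mem (add_mem (hW k _ (hb x)) (W.smul_mem _ (ha x)))
      (add_mem (hW g _ (ha x)) (W.smul_mem _ (hb x)))
  -- hence a commutator times anything squares to zero
  have hnil : IsNilpotent (M * r h) := ⟨2, LinearMap.ext fun x => by
    rw [pow_two, Module.End.mul_apply, Module.End.mul_apply, Module.End.mul_apply,
      LinearMap.zero_apply]
    exact hMW _ (hW h _ (hMV _))⟩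
  have h0 : LinearMap.trace K V (M * r h) = 0 :=
    (LinearMap.isNilpotent_trace_of_isNilpotent hnil).eq_zero
  simpa [M, sub_mul, sub_eq_zero] using h0

/-- A commutator of trace prime to the maximal ideal forces absolute irreducibility. -/
theorem isAbsolutelyIrreducible_of_trace_commutator {T : Type} [CommRing T] [IsLocalRing T]
    (ρ : GaloisRepAdic T)
    (h : ∃ k g h : AbsGal, IsUnit (LinearMap.trace T ρ.V (ρ.ρ (k * g * h)) -
      LinearMap.trace T ρ.V (ρ.ρ (g * k * h)))) : ρ.residual.IsAbsolutelyIrreducible := by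
  obtain ⟨k, g, h, hu⟩ := h
  intro W hW
  by_contra hne
  rw [not_or] at hne
  have h0 := trace_commutator_eq_zero (ρ.residual.baseChange (AlgebraicClosure (ResidueField T))).ρ
    (ρ.residual.baseChange (AlgebraicClosure (ResidueField T))).finrank_eq W hW hne.1 hne.2 k g h
  have htr : ∀ σ, LinearMap.trace (AlgebraicClosure (ResidueField T)) _
      ((ρ.residual.baseChange (AlgebraicClosure (ResidueField T))).ρ σ) =
      algebraMap (ResidueField T) _ (residue T (LinearMap.trace T ρ.V (ρ.ρ σ))) := fun σ => by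
    show LinearMap.trace _ _
      (((ρ.ρ σ).baseChange (ResidueField T)).baseChange (AlgebraicClosure (ResidueField T))) = _
    rw [LinearMap.trace_baseChange, LinearMap.trace_baseChange, ResidueField.algebraMap_eq]
  rw [htr, htr] at h0
  refine (residue_ne_zero_iff_isUnit _).2 hu ?_
  rw [map_sub, sub_eq_zero]
  exact (algebraMap (ResidueField T) _).injective h0

variable {O : Type} [CommRing O] [IsDomain O] [IsDiscreteValuationRing O]
  [IsAdicComplete (maximalIdeal O) O] [Finite (ResidueField O)] [CharZero O]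
  {p : ℕ} [Fact p.Prime]
  {L : ℕ} [NeZero L] {Δ : Type} [CommGroup Δ] [Finite Δ] {ψ : (ZMod L)ˣ →* Δ} {S : Finset ℕ}
  {abar : ℕ → ResidueField O}
  {H : HeckeModule L ψ S abar} {hS : ∀ q : ℕ, q.Prime → q ∣ L → q ∈ S}
  [IsLocalRing H.algebra] {D : ∀ (M : ℕ) [NeZero M], HeckeGaloisModel M p}
  {pt : ∀ θ : H.algebra →ₐ[O] KBar O, Point (p := p) H hS θ.toRingHom} (G : Glued D pt)
  (hp : (p : O) ∈ maximalIdeal O) (hΔ : IsPGroup p Δ)

/-- The adic representation at a point. -/
def Point.adicRep {θK : H.algebra →+* KBar O} (P : Point (p := p) H hS θK) : GaloisRepAdic P.R :=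
  (D P.M).rep P.ι P.θ' P.p_mem

omit [IsAdicComplete (maximalIdeal O) O] [Finite (ResidueField O)] [CharZero O] [NeZero L]
  [Finite Δ] in
/-- The trace of the adic representation at a point is the value of the glued trace. -/
theorem Glued.trace_adicRep (θ : H.algebra →ₐ[O] KBar O) (σ : AbsGal) :
    (pt θ).j (LinearMap.trace (pt θ).R _ (((pt θ).adicRep (D := D)).ρ σ)) =
      θ (LinearMap.trace H.algebra G.rep.V (G.rep.ρ σ)) := by
  rw [G.trace_rep, G.trace_eq, (pt θ).trace_rep D]
  rfl

omit [NeZero L] in
include hp in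
/-- Values of the maximal ideal at a point lie in the maximal ideal. -/
theorem mem_maximal_of_point {θ : H.algebra →ₐ[O] KBar O} (P : Point (p := p) H hS θ.toRingHom)
    {x : H.algebra} (hx : x ∈ maximalIdeal H.algebra) {r : P.R} (hr : θ x = P.j r) :
    r ∈ maximalIdeal P.R := by
  by_contra h
  have hu : IsUnit r := not_not.1 h
  obtain ⟨s, hs⟩ := hu.exists_right_inv
  obtain ⟨k, hk⟩ := exists_pow_le (H := H) (p := p)
  obtain ⟨a, ha⟩ := Ideal.mem_span_singleton'.1 (hk (Ideal.pow_mem_pow hx k))
  refine one_ne_zero (α := KBar O) (eq_zero_of_forall_integral hp fun N => ?_)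
  refine ⟨(θ a * P.j (s ^ k)) ^ N, ((isIntegral_point θ a).mul (P.isIntegral_j _)).pow N, ?_⟩
  rw [← mul_pow, ← mul_assoc, ← map_natCast θ, ← map_mul, mul_comm (p : H.algebra), ha, map_pow,
    hr, ← map_pow P.j r, ← map_mul, ← mul_pow, hs, one_pow, map_one, one_pow]

omit [IsAdicComplete (maximalIdeal O) O] [Finite (ResidueField O)] [CharZero O] [NeZero L]
  [Finite Δ] in
/-- Some commutator of Galois elements has unit trace in the glued representation. -/
theorem Glued.exists_trace_commutator :
    ∃ k g h : AbsGal, IsUnit (LinearMap.trace H.algebra G.rep.V (G.rep.ρ (k * g * h)) -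
      LinearMap.trace H.algebra G.rep.V (G.rep.ρ (g * k * h))) := by
  by_contra! hall
  simp only [G.trace_rep] at hall
  -- otherwise `tr (XYZ) ≡ tr (YXZ)` modulo `𝔪` on the image
  have hm : ∀ k g h, (G.R k * G.R g * G.R h).trace - (G.R g * G.R k * G.R h).trace ∈
      maximalIdeal H.algebra := fun k g h => by
    rw [← map_mul, ← map_mul, ← map_mul, ← map_mul]
    exact hall k g h
  -- which spans all matrices, so the congruence holds for all
  have hmem : ∀ X : Deform.M2 H.algebra, X ∈ Submodule.span H.algebra (Set.range G.R) := fun X => by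
    rw [G.span_eq_top]; trivial
  let m := maximalIdeal H.algebra
  have h1 : ∀ k g, ∀ Z : Deform.M2 H.algebra,
      (G.R k * G.R g * Z).trace - (G.R g * G.R k * Z).trace ∈ m := fun k g Z => by
    induction hmem Z using Submodule.span_induction with
    | mem Z hZ => obtain ⟨h, rfl⟩ := hZ; exact hm k g h
    | zero => simp
    | add x y _ _ hx hy =>
      rw [mul_add, mul_add, Matrix.trace_add, Matrix.trace_add, add_sub_add_comm]
      exact add_mem hx hy
    | smul c x _ hx =>
      rw [mul_smul_comm, mul_smul_comm, Matrix.trace_smul, Matrix.trace_smul, ← smul_sub]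
      exact Ideal.mul_mem_left _ c hx
  have h2 : ∀ k, ∀ Y Z : Deform.M2 H.algebra,
      (G.R k * Y * Z).trace - (Y * G.R k * Z).trace ∈ m := fun k Y Z => by
    induction hmem Y using Submodule.span_induction with
    | mem Y hY => obtain ⟨g, rfl⟩ := hY; exact h1 k g Z
    | zero => simp
    | add x y _ _ hx hy =>
      rw [mul_add, add_mul, add_mul, add_mul, Matrix.trace_add, Matrix.trace_add,
        add_sub_add_comm]
      exact add_mem hx hy
    | smul c x _ hx =>
      simp only [mul_smul_comm, smul_mul_assoc, Matrix.trace_smul, ← smul_sub]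
      exact Ideal.mul_mem_left _ c hx
  have h3 : ∀ X Y Z : Deform.M2 H.algebra, (X * Y * Z).trace - (Y * X * Z).trace ∈ m :=
    fun X Y Z => by
    induction hmem X using Submodule.span_induction with
    | mem X hX => obtain ⟨k, rfl⟩ := hX; exact h2 k Y Z
    | zero => simp
    | add x y _ _ hx hy =>
      rw [mul_add, add_mul, add_mul, add_mul, Matrix.trace_add, Matrix.trace_add,
        add_sub_add_comm]
      exact add_mem hx hy
    | smul c x _ hx =>
      simp only [mul_smul_comm, smul_mul_assoc, Matrix.trace_smul, ← smul_sub]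
      exact Ideal.mul_mem_left _ c hx
  -- it fails for matrix units
  have := h3 (Matrix.single 0 1 1) (Matrix.single 1 0 1) (Matrix.single 0 0 1)
  simp [Matrix.trace_single_eq_same] at this
  exact (maximalIdeal.isMaximal H.algebra).ne_top ((Ideal.eq_top_iff_one _).2 this)

include G hp in
omit [NeZero L] in
/-- The residual representations at the points are absolutely irreducible. -/
theorem Glued.isAbsolutelyIrreducible (θ : H.algebra →ₐ[O] KBar O) :
    ((pt θ).adicRep (D := D)).residual.IsAbsolutelyIrreducible := by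
  obtain ⟨k, g, h, hu⟩ := G.exists_trace_commutator
  refine isAbsolutelyIrreducible_of_trace_commutator _ ⟨k, g, h, by_contra fun hd => ?_⟩
  obtain ⟨y, hy⟩ := hu.exists_right_inv
  set d := LinearMap.trace (pt θ).R _ (((pt θ).adicRep (D := D)).ρ (k * g * h)) -
    LinearMap.trace (pt θ).R _ (((pt θ).adicRep (D := D)).ρ (g * k * h))
  have hdj : (pt θ).j d = θ (LinearMap.trace H.algebra G.rep.V (G.rep.ρ (k * g * h)) -
      LinearMap.trace H.algebra G.rep.V (G.rep.ρ (g * k * h))) := by
    rw [map_sub, map_sub, G.trace_adicRep, G.trace_adicRep]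
  -- `d` in the maximal ideal would make `p` invertible among the integral elements
  obtain ⟨n, hn⟩ : ∃ n, d ^ n ∈ Ideal.span {((p : (pt θ).R))} := by
    refine Ideal.mem_radical_iff.1 ?_
    have hp0 : (p : (pt θ).R) ≠ 0 := Nat.cast_ne_zero.2 (Fact.out : p.Prime).ne_zero
    rw [Ideal.radical_eq_sInf]
    refine Ideal.mem_sInf.2 fun {P} hP => ?_
    have := hP.2
    rw [eq_maximalIdeal (this.isMaximal fun h0 => hp0 ?_)]
    · exact hd
    · simpa [h0] using hP.1 (Ideal.mem_span_singleton_self _)
  obtain ⟨a, ha⟩ := Ideal.mem_span_singleton'.1 hn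
  refine one_ne_zero (α := KBar O) (eq_zero_of_forall_integral hp fun N => ?_)
  refine ⟨((pt θ).j a * θ (y ^ n)) ^ N,
    (((pt θ).isIntegral_j a).mul (isIntegral_point θ _)).pow N, ?_⟩
  rw [← mul_pow, ← mul_assoc, ← map_natCast (pt θ).j, ← map_mul, mul_comm _ a, ha, map_pow, hdj,
    ← map_pow θ, ← map_mul, ← mul_pow, hy, one_pow, map_one, one_pow]

include hp in
omit [NeZero L] in
theorem Glued.trace_sub_two_mem {ρbar : ResidualGaloisRep (ResidueField O)}
    [IsLocalHom (algebraMap O H.algebra)]
    (hG : G.rep.residual.IsEquiv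
      (ρbar.baseChangeAlong (ResidueField.map (algebraMap O H.algebra))))
    (θ : H.algebra →ₐ[O] KBar O) {σ : AbsGal}
    (hσ : LinearMap.trace (ResidueField O) ρbar.V (ρbar.ρ σ) = 2) :
    LinearMap.trace (pt θ).R _ (((pt θ).adicRep (D := D)).ρ σ) - 2 ∈ maximalIdeal (pt θ).R := by
  obtain ⟨e⟩ := hG
  have hres : residue H.algebra (LinearMap.trace H.algebra G.rep.V (G.rep.ρ σ)) = 2 := by
    have h1 : LinearMap.trace (ResidueField H.algebra) _ (G.rep.residual.ρ σ) =
        residue H.algebra (LinearMap.trace H.algebra G.rep.V (G.rep.ρ σ)) := by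
      show LinearMap.trace _ _ ((G.rep.ρ σ).baseChange _) = _
      rw [LinearMap.trace_baseChange, ResidueField.algebraMap_eq]
    rw [← h1]
    set φ := ResidueField.map (algebraMap O H.algebra)
    have h2 : e.toLinearEquiv.conj (G.rep.residual.ρ σ) = (ρbar.baseChangeAlong φ).ρ σ :=
      LinearMap.ext fun x => by
        rw [LinearEquiv.conj_apply_apply, e.map_apply, LinearEquiv.apply_symm_apply]
    rw [← LinearMap.trace_conj' (G.rep.residual.ρ σ) e.toLinearEquiv, h2]
    let : Algebra (ResidueField O) (ResidueField H.algebra) := φ.toAlgebra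
    show LinearMap.trace _ _ ((ρbar.ρ σ).baseChange _) = _
    rw [LinearMap.trace_baseChange, hσ, map_ofNat]
  refine mem_maximal_of_point hp (pt θ)
    (x := LinearMap.trace H.algebra G.rep.V (G.rep.ρ σ) - 2) ?_ ?_
  · rw [← residue_eq_zero_iff, map_sub, hres, map_ofNat, sub_self]
  · rw [map_sub, map_sub, G.trace_adicRep, map_ofNat, map_ofNat]

end Fermat.Agent.RT.Glue
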