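import Fermat.Agent.RT.Glue.Rep
import Fermat.Agent.GaloisReps.Rep

/-!
# First properties of the glued representation

Characteristic polynomials read at the points, the cyclotomic determinant, unramifiedness outside
`p L` and the Frobenius polynomials at `ℓ ∉ S` (`Glued.charpoly_frobenius`).
-/

set_option autoImplicit false

noncomputable section

open IsLocalRing Polynomial

namespace Fermat.Agent.RT.Glue

open GaloisReps (AbsGal HeckeGaloisModel)

variable {O : Type} [CommRing O] [IsDomain O] [IsDiscreteValuationRing O]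
  [IsAdicComplete (maximalIdeal O) O] [Finite (ResidueField O)] [CharZero O]
  {p : ℕ} [Fact p.Prime]
  {L : ℕ} [NeZero L] {Δ : Type} [CommGroup Δ] [Finite Δ] {ψ : (ZMod L)ˣ →* Δ} {S : Finset ℕ}
  {abar : ℕ → ResidueField O}
  {H : HeckeModule L ψ S abar} {hS : ∀ q : ℕ, q.Prime → q ∣ L → q ∈ S}
  [IsLocalRing H.algebra] {D : ∀ (M : ℕ) [NeZero M], HeckeGaloisModel M p}
  {pt : ∀ θ : H.algebra →ₐ[O] KBar O, Point (p := p) H hS θ.toRingHom} (G : Glued D pt)

/-- The glued representation. -/
def Glued.rep : GaloisRepAdic H.algebra := Deform.toRep G.R G.cont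

omit [IsAdicComplete (maximalIdeal O) O] [Finite (ResidueField O)] [CharZero O] [NeZero L]
  [Finite Δ] in
theorem Glued.charpoly_rep (σ : AbsGal) : LinearMap.charpoly (G.rep.ρ σ) = (G.R σ).charpoly := by
  let b : Module.Basis (Fin 2) H.algebra G.rep.V := Pi.basisFun H.algebra (Fin 2)
  rw [← LinearMap.charpoly_toMatrix (G.rep.ρ σ) b]
  refine congrArg Matrix.charpoly ?_
  show LinearMap.toMatrix (Pi.basisFun H.algebra (Fin 2)) (Pi.basisFun H.algebra (Fin 2))
    (Matrix.toLinAlgEquiv' (G.R σ)) = _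
  rw [LinearMap.toMatrix_eq_toMatrix']
  exact LinearMap.toMatrix'_toLin' (G.R σ)

omit [IsAdicComplete (maximalIdeal O) O] [Finite (ResidueField O)] [CharZero O] [NeZero L]
  [Finite Δ] in
/-- The determinant of the glued representation is that of its matrices. -/
theorem Glued.det_rep (σ : AbsGal) : LinearMap.det (G.rep.ρ σ) = (G.R σ).det :=
  LinearMap.det_toLin' (G.R σ)

omit [IsAdicComplete (maximalIdeal O) O] [Finite (ResidueField O)] [CharZero O] [NeZero L]
  [Finite Δ] in
/-- The trace of the glued representation is that of its matrices. -/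
theorem Glued.trace_rep (σ : AbsGal) :
    LinearMap.trace H.algebra G.rep.V (G.rep.ρ σ) = (G.R σ).trace := by
  let b : Module.Basis (Fin 2) H.algebra G.rep.V := Pi.basisFun H.algebra (Fin 2)
  rw [LinearMap.trace_eq_matrix_trace H.algebra b]
  refine congrArg Matrix.trace ?_
  show LinearMap.toMatrix (Pi.basisFun H.algebra (Fin 2)) (Pi.basisFun H.algebra (Fin 2))
    (Matrix.toLinAlgEquiv' (G.R σ)) = _
  rw [LinearMap.toMatrix_eq_toMatrix']
  exact LinearMap.toMatrix'_toLin' (G.R σ)

omit [IsAdicComplete (maximalIdeal O) O] [Finite (ResidueField O)] [CharZero O] [NeZero L] in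
/-- A characteristic polynomial identity can be checked at the points. -/
theorem Glued.charpoly_rep_eq {σ : AbsGal} {t d : H.algebra}
    (ht : ∀ θ, ((pt θ).rep D σ).trace = θ t) (hd : ∀ θ, ((pt θ).rep D σ).det = θ d) :
    LinearMap.charpoly (G.rep.ρ σ) = X ^ 2 - C t * X + C d := by
  rw [G.charpoly_rep, Matrix.charpoly_fin_two]
  have h1 : (G.R σ).trace = t := sub_eq_zero.1 (eq_zero_of_forall_point fun θ => by
    rw [map_sub, G.trace_eq, ht, sub_self])
  have h2 : (G.R σ).det = d := sub_eq_zero.1 (eq_zero_of_forall_point fun θ => by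
    rw [map_sub, G.det_eq, hd, sub_self])
  rw [h1, h2]

omit [IsAdicComplete (maximalIdeal O) O] [Finite (ResidueField O)] [CharZero O] [NeZero L] in
theorem Glued.detIsCyclotomic (hp : (p : O) ∈ maximalIdeal O) :
    G.rep.DetIsCyclotomic p := by
  refine ⟨natCast_mem hp, fun n σ a ha => ?_⟩
  rw [G.det_rep, Nat.cast_pow]
  exact G.det_congr n σ a ha

omit [IsAdicComplete (maximalIdeal O) O] [Finite (ResidueField O)] [CharZero O] [NeZero L] in
/-- An element acting trivially at every point acts trivially. -/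
theorem Glued.rep_eq_one {σ : AbsGal} (h : ∀ θ, (pt θ).rep D σ = 1) : G.rep.ρ σ = 1 := by
  have hR : G.R σ = 1 := Matrix.ext fun i j => sub_eq_zero.1 (eq_zero_of_forall_point fun θ => by
    have h1 := congrFun (congrFun ((G.map_eq_one θ σ).2 (h θ)) i) j
    rw [Matrix.map_apply] at h1
    rw [map_sub, h1]
    rcases eq_or_ne i j with rfl | hij
    · rw [Matrix.one_apply_eq, Matrix.one_apply_eq, map_one, sub_self]
    · rw [Matrix.one_apply_ne hij, Matrix.one_apply_ne hij, map_zero, sub_self])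
  show Matrix.toLinAlgEquiv' (G.R σ) = 1
  rw [hR, map_one]

omit [IsAdicComplete (maximalIdeal O) O] [Finite (ResidueField O)] [CharZero O] [NeZero L]
  [Finite Δ] [IsLocalRing H.algebra] in
theorem Point.rep_eq_one {θK : H.algebra →+* KBar O} (P : Point (p := p) H hS θK) {σ : AbsGal}
    (h : (D P.M).gal σ = 1) : P.rep D σ = 1 := by
  have h1 : (D P.M).eigenAction P.ι P.θ' σ = 1 := by
    refine LinearMap.ext fun v => Subtype.ext ?_
    rw [GaloisReps.HeckeGaloisModel.coe_eigenAction, h,
      Matrix.map_one P.ι (map_zero P.ι) (map_one P.ι), Matrix.one_mulVec, Module.End.one_apply]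
  rw [P.rep_apply D, GaloisReps.HeckeGaloisModel.eigenMatrix, h1, LinearMap.toMatrix_one]
  exact Matrix.map_one P.j (map_zero P.j) (map_one P.j)

omit [IsAdicComplete (maximalIdeal O) O] [Finite (ResidueField O)] [CharZero O] [NeZero L] in
/-- The glued representation is unramified outside `p L`. -/
theorem Glued.isUnramifiedAt {q : ℕ} (hq : q.Prime) (hqL : ¬ q ∣ L) (hqp : q ≠ p) :
    G.rep.IsUnramifiedAt q := by
  intro A hA σ hσ
  refine G.rep_eq_one fun θ => (pt θ).rep_eq_one ((D (pt θ).M).gal_unramified q hq ?_ A hA σ hσ)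
  intro h
  rcases hq.dvd_mul.1 h with h | h
  · exact hqL (hq.dvd_of_dvd_pow (h.trans (pt θ).dvd))
  · exact hqp ((Nat.prime_dvd_prime_iff_eq hq Fact.out).1 h)

omit [IsAdicComplete (maximalIdeal O) O] [Finite (ResidueField O)] [CharZero O] [NeZero L] in
/-- Frobenius at `ℓ ∉ S` has characteristic polynomial `X² - (Hecke eigenvalue) X + ℓ`. -/
theorem Glued.charpoly_frobenius (hpS : p ∈ S) {ℓ : ℕ} (hℓ : ℓ.Prime) (hℓS : ℓ ∉ S)
    {A : ValuationSubring (AlgebraicClosure ℚ)} (hA : A.LiesOverPrime ℓ) {s : AbsGal}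
    (hs : A.IsFrobeniusAt s ℓ) :
    LinearMap.charpoly (G.rep.ρ s) = X ^ 2 - C (sA H hS hℓ hℓS) * X + C (ℓ : H.algebra) := by
  refine G.charpoly_rep_eq (fun θ => ?_) fun θ => ?_
  · have h := (pt θ).trace_frobenius_pow D hpS hℓ hℓS hA hs 1
    rw [pow_one] at h
    exact h
  · rw [(pt θ).det_rep D, (D (pt θ).M).det_eigenAction_of_roots _ _ (pt θ).p_mem (q := ℓ)
      fun n ζ hζ => Arith.frobenius_root hA hℓ hs hζ fun h =>
        hℓS (by rw [(Nat.prime_dvd_prime_iff_eq hℓ Fact.out).1 (hℓ.dvd_of_dvd_pow h)]; exact hpS),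
      map_natCast, map_natCast]

end Fermat.Agent.RT.Glue
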