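import Mathlib
import Fermat.Agent.RT.Glue.Basic

/-!
# The representation attached to a Hecke module

`exists_rep`: for an odd `p` and an absolutely irreducible residual representation with the
polynomials of the residual system there are points and a glued representation with that
reduction, cyclotomic determinant, unramified outside `p L`, with the Frobenius polynomials of the
Hecke algebra. It is used in `RT/LowerB` and `RT/Lifting`.
-/

set_option autoImplicit false

noncomputable section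

open IsLocalRing Polynomial

namespace Fermat.Agent.RT.Glue

open GaloisReps (AbsGal HeckeGaloisModel)

variable {O : Type} [CommRing O] [IsDomain O] [IsDiscreteValuationRing O]
  [IsAdicComplete (maximalIdeal O) O] [Finite (ResidueField O)] [CharZero O]
  {p : ℕ} [Fact p.Prime]
  {L : ℕ} [NeZero L] {Δ : Type} [CommGroup Δ] [Finite Δ] {ψ : (ZMod L)ˣ →* Δ} {S : Finset ℕ}
  {abar : ℕ → ResidueField O} (hp : (p : O) ∈ maximalIdeal O) {H : HeckeModule L ψ S abar}

omit [NeZero L] in
include hp in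
/-- Homomorphisms to `ℂ` separate the elements of the Hecke algebra. -/
theorem eq_zero_of_forall_complex {x : H.algebra} (h : ∀ θ : H.algebra →+* ℂ, θ x = 0) : x = 0 := by
  obtain ⟨ι⟩ := GaloisReps.exists_padicHom O hp
  obtain ⟨e⟩ := nonempty_ringEquiv_complex O ι
  exact eq_zero_of_forall_point fun θ => e.injective
    ((h (e.toRingHom.comp θ.toRingHom)).trans (map_zero e).symm)

omit [IsAdicComplete (maximalIdeal O) O] [Finite (ResidueField O)] [CharZero O] [NeZero L]
  [Finite Δ] in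
theorem sA_eq (hS : ∀ q : ℕ, q.Prime → q ∣ L → q ∈ S) {ℓ : ℕ} (hℓ : ℓ.Prime) (hℓS : ℓ ∉ S)
    {u : (ZMod L)ˣ} (hu : (u : ZMod L) = ℓ) :
    sA H hS hℓ hℓS = diaA H (ψ u) ^ halfInvExp Δ * TA H hℓ hℓS := by
  rw [sA, show ZMod.unitOfCoprime ℓ (coprime_of_notMem hS hℓ hℓS) = u from
    Units.ext ((ZMod.coe_unitOfCoprime _ _).trans hu.symm)]

variable (hΔ : IsPGroup p Δ) (hp2 : p ≠ 2) (hpS : p ∈ S)
  (hS : ∀ q : ℕ, q.Prime → q ∣ L → q ∈ S)
  {ρbar : ResidualGaloisRep (ResidueField O)} (habs : ρbar.IsAbsolutelyIrreducible)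
  (hbar : HasCharpolys S abar ρbar)
  [IsLocalRing H.algebra] [IsLocalHom (algebraMap O H.algebra)]
  (D : ∀ (M : ℕ) [NeZero M], HeckeGaloisModel M p)

include hp hΔ hp2 hpS habs hbar in
/-- The representation, with its first properties. -/
theorem exists_rep :
    ∃ (pt : ∀ θ : H.algebra →ₐ[O] KBar O, Point (p := p) H hS θ.toRingHom) (G : Glued D pt),
      G.rep.residual.IsEquiv
          (ρbar.baseChangeAlong (ResidueField.map (algebraMap O H.algebra))) ∧
        G.rep.DetIsCyclotomic p ∧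
        (∀ q : ℕ, q.Prime → ¬ q ∣ L * p → G.rep.IsUnramifiedAt q) ∧
        ∀ (ℓ : ℕ) (hℓ : ℓ.Prime) (hℓS : ℓ ∉ S) (u : (ZMod L)ˣ), (u : ZMod L) = ℓ →
          ∀ A : ValuationSubring (AlgebraicClosure ℚ), A.LiesOverPrime ℓ →
            ∀ σ : AbsGal, A.IsFrobeniusAt σ ℓ → LinearMap.charpoly (G.rep.ρ σ) =
              X ^ 2 - C (diaA H (ψ u) ^ halfInvExp Δ * TA H hℓ hℓS) * X + C (ℓ : H.algebra) := by
  let pt := fun θ => (exists_point hp H hS θ).some
  obtain ⟨G, hG⟩ := exists_glued hp hΔ hp2 hpS habs hbar D pt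
  refine ⟨pt, G, hG, G.detIsCyclotomic hp, fun q hq h => G.isUnramifiedAt hq
    (fun hL => h (dvd_mul_of_dvd_left hL p)) (fun hqp => h (hqp ▸ dvd_mul_left q L)),
    fun ℓ hℓ hℓS u hu A hA σ hσ => ?_⟩
  rw [G.charpoly_frobenius hpS hℓ hℓS hA hσ, sA_eq hS hℓ hℓS hu]

end Fermat.Agent.RT.Glue
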