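import Mathlib.Tactic

/-!
# Matrix units from an idempotent of trace one

An idempotent `e` with trace `1` and determinant `0` in the two by two matrices over a commutative
ring, with two further matrices `y` and `z` normalised by `tr (e z (1 - e) y e) = 1`, gives
coordinates `tr (X * munit e y z b a)` which are multiplicative in `X`.
-/

set_option autoImplicit false

noncomputable section

open Matrix

namespace Fermat.Agent.RT.Glue

section Units

variable {K : Type*} [CommRing K]

/-- In rank two the trace determines twice the determinant. -/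
theorem two_mul_det (X : Matrix (Fin 2) (Fin 2) K) :
    2 * X.det = X.trace * X.trace - (X * X).trace := by
  simp only [Matrix.trace_fin_two, Matrix.det_fin_two, Matrix.mul_apply, Fin.sum_univ_two]
  ring

/-- For `tr e = 1` and `det e = 0` the sandwich `e X e` is `tr (X e) e`. -/
theorem sandwich_eq {e : Matrix (Fin 2) (Fin 2) K} (ht : e.trace = 1) (hd : e.det = 0)
    (X : Matrix (Fin 2) (Fin 2) K) : e * X * e = (X * e).trace • e := by
  rw [Matrix.trace_fin_two] at ht
  rw [Matrix.det_fin_two] at hd
  ext i j
  fin_cases i <;> fin_cases j <;>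
    simp [Matrix.mul_apply, Fin.sum_univ_two, Matrix.trace_fin_two, Matrix.smul_apply] <;> grind

theorem mul_self_eq {e : Matrix (Fin 2) (Fin 2) K} (ht : e.trace = 1) (hd : e.det = 0) :
    e * e = e := by
  rw [Matrix.trace_fin_two] at ht
  rw [Matrix.det_fin_two] at hd
  ext i j
  fin_cases i <;> fin_cases j <;> simp [Matrix.mul_apply, Fin.sum_univ_two] <;> grind

theorem det_one_sub {e : Matrix (Fin 2) (Fin 2) K} (ht : e.trace = 1) (hd : e.det = 0) :
    (1 - e).det = 0 := by
  rw [Matrix.trace_fin_two] at ht
  rw [Matrix.det_fin_two] at hd ⊢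
  simp
  grind

theorem trace_one_sub {e : Matrix (Fin 2) (Fin 2) K} (ht : e.trace = 1) : (1 - e).trace = 1 := by
  rw [Matrix.trace_sub, Matrix.trace_one, ht]
  simp
  norm_num

/-- A system of matrix units built from `e`, `y`, `z`. -/
def munit {R : Type*} [Ring R] (e y z : R) (a b : Fin 2) : R :=
  if a = 0 then (if b = 0 then e else e * z * (1 - e))
  else (if b = 0 then (1 - e) * y * e else 1 - e)

/-- Matrix units commute with ring maps. -/
theorem munit_map {R R' : Type*} [Ring R] [Ring R'] (φ : R →+* R') (e y z : R) (a b : Fin 2) :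
    φ (munit e y z a b) = munit (φ e) (φ y) (φ z) a b := by
  fin_cases a <;> fin_cases b <;> simp [munit]

/-- Coordinates with respect to the matrix units are multiplicative. -/
theorem coord_mul {e y z : Matrix (Fin 2) (Fin 2) K} (ht : e.trace = 1) (hd : e.det = 0)
    (hc : (e * z * (1 - e) * y * e).trace = 1) (X Y : Matrix (Fin 2) (Fin 2) K) (a b : Fin 2) :
    (X * Y * munit e y z b a).trace =
      ∑ k, (X * munit e y z k a).trace * (Y * munit e y z b k).trace := by
  have hee := mul_self_eq ht hd
  have htQ := trace_one_sub ht
  have hdQ := det_one_sub ht hd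
  set f := munit e y z with hf
  -- the products `f k 0 * f 0 k` are the two idempotents
  have hr : ∀ k, f k 0 * f 0 k = (if k = 0 then e else 1 - e) := by
    intro k
    fin_cases k
    · show e * e = _
      simpa using hee
    · show (1 - e) * y * e * (e * z * (1 - e)) = _
      have : (1 - e) * y * e * (e * z * (1 - e)) = (1 - e) * (y * e * z) * (1 - e) := by
        rw [show (1 - e) * y * e * (e * z * (1 - e)) = (1 - e) * y * (e * e) * z * (1 - e) by
          simp only [mul_assoc], hee]
        simp only [mul_assoc]
      rw [this, sandwich_eq htQ hdQ]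
      have : (y * e * z * (1 - e)).trace = 1 := by
        rw [show y * e * z * (1 - e) = y * (e * (e * z * (1 - e))) by
          simp only [← mul_assoc]; rw [mul_assoc y e e, hee], ← mul_assoc,
          Matrix.trace_mul_comm, ← mul_assoc, hc]
      rw [this, one_smul]
      simp
  have hsum : ∑ k, f k 0 * f 0 k = 1 := by
    rw [Fin.sum_univ_two, hr, hr]; simp
  -- sandwiches
  have hsand : ∀ (a' b' : Fin 2) (W : Matrix (Fin 2) (Fin 2) K),
      f 0 a' * W * f b' 0 = (W * f b' a').trace • e := by
    intro a' b' W
    have e1 : ∀ k, e * f 0 k = f 0 k := by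
      intro k; fin_cases k
      · exact hee
      · show e * (e * z * (1 - e)) = e * z * (1 - e)
        rw [← mul_assoc, ← mul_assoc, hee]
    have e2 : ∀ k, f k 0 * e = f k 0 := by
      intro k; fin_cases k
      · exact hee
      · show (1 - e) * y * e * e = (1 - e) * y * e
        rw [mul_assoc, hee]
    have : f 0 a' * W * f b' 0 = e * (f 0 a' * W * f b' 0) * e := by
      rw [show e * (f 0 a' * W * f b' 0) * e = (e * f 0 a') * W * (f b' 0 * e) by
        simp only [mul_assoc], e1, e2]
    rw [this, sandwich_eq ht hd, show f 0 a' * W * f b' 0 * e = f 0 a' * W * (f b' 0 * e) by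
      simp only [mul_assoc], e2, mul_assoc, Matrix.trace_mul_comm, mul_assoc]
    congr 3
    -- `f b' 0 * f 0 a' = f b' a'`
    have : f b' 0 * f 0 a' = f b' a' := by
      fin_cases b' <;> fin_cases a'
      · exact hee
      · exact e1 1
      · exact e2 1
      · refine (hr 1).trans ?_
        simp [f, munit]
    exact this
  have key : (X * Y * f b a).trace • e = (∑ k, (X * f k a).trace * (Y * f b k).trace) • e := by
    rw [← hsand, Finset.sum_smul]
    calc f 0 a * (X * Y) * f b 0 = f 0 a * X * (∑ k, f k 0 * f 0 k) * (Y * f b 0) := by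
          rw [hsum, mul_one]; simp only [mul_assoc]
      _ = ∑ k, f 0 a * X * f k 0 * (f 0 k * Y * f b 0) := by
          rw [Finset.mul_sum, Finset.sum_mul]
          exact Finset.sum_congr rfl fun k _ => by simp only [mul_assoc]
      _ = _ := by
          refine Finset.sum_congr rfl fun k _ => ?_
          rw [hsand, hsand, smul_mul_smul_comm, hee]
  have := congrArg Matrix.trace key
  rwa [Matrix.trace_smul, Matrix.trace_smul, ht, smul_eq_mul, smul_eq_mul, mul_one, mul_one] at this

/-- The coordinates of the identity in a system of matrix units are those of the identity matrix. -/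
theorem coord_one {e y z : Matrix (Fin 2) (Fin 2) K} (ht : e.trace = 1) (hd : e.det = 0)
    (a b : Fin 2) : (munit e y z b a).trace = if a = b then 1 else 0 := by
  have hee := mul_self_eq ht hd
  have heQ : e * (1 - e) = 0 := by rw [mul_sub, mul_one, hee, sub_self]
  have hQe : (1 - e) * e = 0 := by rw [sub_mul, one_mul, hee, sub_self]
  fin_cases a <;> fin_cases b
  · simpa [munit] using ht
  · show ((1 - e) * y * e).trace = 0
    rw [Matrix.trace_mul_comm, ← mul_assoc, heQ, zero_mul, Matrix.trace_zero]
  · show (e * z * (1 - e)).trace = 0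
    rw [Matrix.trace_mul_comm, ← mul_assoc, hQe, zero_mul, Matrix.trace_zero]
  · simpa [munit] using trace_one_sub ht

end Units

end Fermat.Agent.RT.Glue
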