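import Mathlib.RingTheory.Ideal.Quotient.Index
import Mathlib.Tactic

/-!
# Divisibility in a compact ring from approximate divisibility of the values

In a complete local ring with finite residue field in which `(p)` is primary to the maximal ideal, a
decreasing family of conditions, stable under translation by multiples of `p ^ N`, with intersection
`0`, forces divisibility by any given power of `p`.
-/

set_option autoImplicit false

noncomputable section

open IsLocalRing

namespace Fermat.Agent.RT.Glue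

variable {A : Type} [CommRing A] [IsLocalRing A] {p : A}

/-- `p`-adic Cauchy sequences converge. -/
theorem exists_limit [IsAdicComplete (maximalIdeal A) A] (hp : p ∈ maximalIdeal A) 
    (hk : ∃ k, maximalIdeal A ^ k ≤ Ideal.span {p})
    (s : ℕ → A) (hs : ∀ m, s (m + 1) - s m ∈ Ideal.span {p ^ m}) :
    ∃ x, ∀ m, x - s m ∈ Ideal.span {p ^ m} := by
  obtain ⟨k, hk⟩ := hk
  have hle : ∀ m n, m ≤ n → s n - s m ∈ Ideal.span {p ^ m} := by
    intro m n hmn
    induction n, hmn using Nat.le_induction with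
    | base => rw [sub_self]; exact zero_mem _
    | succ n hmn ih =>
      have h := Ideal.span_singleton_le_span_singleton.2 (pow_dvd_pow p hmn) (hs n)
      simpa using add_mem h ih
  have hpow : ∀ m, Ideal.span {p ^ m} ≤ maximalIdeal A ^ m := fun m =>
    (Ideal.span_singleton_le_iff_mem _).2 (Ideal.pow_mem_pow hp m)
  obtain ⟨x, hx⟩ := IsPrecomplete.prec (I := maximalIdeal A) inferInstance (f := s)
    fun {m n} hmn => by
      rw [SModEq.sub_mem, smul_eq_mul, Ideal.mul_top, ← neg_sub]
      exact neg_mem (hpow m (hle m n hmn))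
  refine ⟨x, fun m => ?_⟩
  have h1 : x - s ((k + 1) * m) ∈ Ideal.span {p ^ m} := by
    have h := hx ((k + 1) * m)
    rw [SModEq.sub_mem, smul_eq_mul, Ideal.mul_top] at h
    rw [← neg_sub, ← Ideal.span_singleton_pow]
    refine neg_mem (Ideal.pow_right_mono ((Ideal.pow_le_pow_right (Nat.le_succ k)).trans hk) m ?_)
    rwa [← pow_mul]
  simpa using add_mem h1 (hle m ((k + 1) * m) (Nat.le_mul_of_pos_left m (Nat.succ_pos k)))

theorem finite_quotient_span_pow [IsNoetherianRing A] [Finite (ResidueField A)]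
    (hk : ∃ k, maximalIdeal A ^ k ≤ Ideal.span {p}) (m : ℕ) :
    Finite (A ⧸ Ideal.span {p ^ m}) := by
  obtain ⟨k, hk⟩ := hk
  have : Finite (A ⧸ maximalIdeal A) := inferInstanceAs (Finite (ResidueField A))
  have : Finite (A ⧸ maximalIdeal A ^ (k * m)) :=
    Ideal.finite_quotient_pow (IsNoetherian.noetherian (maximalIdeal A)) _
  have hle : maximalIdeal A ^ (k * m) ≤ Ideal.span {p ^ m} := by
    rw [pow_mul, ← Ideal.span_singleton_pow]
    exact Ideal.pow_right_mono hk m
  exact Finite.of_surjective (Ideal.Quotient.factor hle) (Ideal.Quotient.factor_surjective hle)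

/-- The saturation statement. -/
theorem exists_saturation [IsNoetherianRing A] [IsAdicComplete (maximalIdeal A) A]
    [Finite (ResidueField A)] (hp : p ∈ maximalIdeal A)
    (hk : ∃ k, maximalIdeal A ^ k ≤ Ideal.span {p}) (Small : ℕ → A → Prop)
    (hanti : ∀ ⦃M N⦄, M ≤ N → ∀ x, Small N x → Small M x)
    (hadd : ∀ N x y, Small N x → y ∈ Ideal.span {p ^ N} → Small N (x + y))
    (hsep : ∀ x, (∀ N, Small N x) → x = 0) (n : ℕ) :
    ∃ N, ∀ x, Small N x → x ∈ Ideal.span {p ^ n} := by
  by_contra! hbad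
  let P : ℕ → A → Prop := fun m y => ∀ N, ∃ x, Small N x ∧ x ∉ Ideal.span {p ^ n} ∧
    x - y ∈ Ideal.span {p ^ m}
  have hstep : ∀ m y, P m y → ∃ y', y' - y ∈ Ideal.span {p ^ m} ∧ P (m + 1) y' := by
    intro m y hy
    by_contra! hno
    have := finite_quotient_span_pow hk (m + 1)
    have := Fintype.ofFinite (A ⧸ Ideal.span {p ^ (m + 1)})
    have : ∀ c : A ⧸ Ideal.span {p ^ (m + 1)}, ∃ N, ∀ x, Ideal.Quotient.mk _ x = c →
        Small N x → x ∉ Ideal.span {p ^ n} → x - y ∉ Ideal.span {p ^ m} := by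
      intro c
      by_contra! hc
      obtain ⟨x₀, hx₀, -, -, h₀⟩ := hc 0
      refine hno x₀ h₀ fun N => ?_
      obtain ⟨x, hx, hS, hn, -⟩ := hc N
      exact ⟨x, hS, hn, Ideal.Quotient.eq.1 (hx.trans hx₀.symm)⟩
    choose Nc hNc using this
    obtain ⟨x, hS, hn, hxy⟩ := hy (Finset.univ.sup Nc)
    exact hNc _ x rfl (hanti (Finset.le_sup (Finset.mem_univ _)) x hS) hn hxy
  have h0 : P 0 0 := fun N => by
    obtain ⟨x, hS, hn⟩ := hbad N
    exact ⟨x, hS, hn, by simp⟩
  choose! f hf1 hf2 using hstep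
  let s : ℕ → A := fun m => Nat.rec 0 (fun m y => f m y) m
  have hsP : ∀ m, P m (s m) := fun m => by
    induction m with
    | zero => exact h0
    | succ m ih => exact hf2 m _ ih
  obtain ⟨z, hz⟩ := exists_limit hp hk s fun m => hf1 m _ (hsP m)
  have hz0 : z = 0 := hsep z fun N => by
    obtain ⟨x, hS, -, hx⟩ := hsP N N
    have h := hadd N x (z - x) hS (by simpa using sub_mem (hz N) hx)
    rwa [add_sub_cancel] at h
  obtain ⟨x, -, hn, hx⟩ := hsP n 0
  have h := hz n
  rw [hz0, zero_sub] at h
  exact hn (by simpa using sub_mem hx h)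

end Fermat.Agent.RT.Glue
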