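import Fermat.Agent.RT.Glue.Basic
import Fermat.Agent.NewformLocal.Assembly

/-!
# Inertia and Frobenius at the primes of the level

At a prime `v ≠ p` of the level, given the local properties of the models: unipotent inertia at
the points whose newform has `v` at most once in its level, the squared trace of Frobenius
`(v + 1) ^ 2` where the point is special (`Glued.trace_sq_frobenius`), and the statement
`TwistedInertia` for the other points.
-/

set_option autoImplicit false

noncomputable section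

open IsLocalRing Polynomial

namespace Fermat.Agent.RT.Glue

open GaloisReps (AbsGal HeckeGaloisModel)
open NewformLocal (UnipotentAt ToricSquareAt toricOp)

variable {O : Type} [CommRing O] [IsDomain O] [IsDiscreteValuationRing O]
  {p : ℕ} [Fact p.Prime]
  {L : ℕ} {Δ : Type} [CommGroup Δ] {ψ : (ZMod L)ˣ →* Δ} {S : Finset ℕ}
  {abar : ℕ → ResidueField O}
  {H : HeckeModule L ψ S abar} {hS : ∀ q : ℕ, q.Prime → q ∣ L → q ∈ S}
  (D : ∀ (M : ℕ) [NeZero M], HeckeGaloisModel M p)

/-- A two by two unipotent matrix over a domain has trace two and determinant one. -/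
theorem trace_det_of_unipotent {R : Type} [CommRing R] [IsDomain R] {X : Matrix (Fin 2) (Fin 2) R}
    (h : (X - 1) ^ 2 = 0) : X.trace = 2 ∧ X.det = 1 := by
  have hd : (X - 1).det = 0 := by
    have := congrArg Matrix.det h
    rw [Matrix.det_pow, Matrix.det_zero] at this
    exact pow_eq_zero_iff two_ne_zero |>.1 this
  have ht : (X - 1).trace = 0 := by
    have h00 := congrFun (congrFun h 0) 0
    have h11 := congrFun (congrFun h 1) 1
    rw [pow_two, Matrix.mul_apply, Fin.sum_univ_two] at h00 h11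
    rw [Matrix.det_fin_two] at hd
    simp only [Matrix.sub_apply, Matrix.one_apply_eq, Matrix.zero_apply,
      Matrix.one_apply_ne (show (0 : Fin 2) ≠ 1 by decide),
      Matrix.one_apply_ne (show (1 : Fin 2) ≠ 0 by decide)] at h00 h11 hd
    rw [Matrix.trace_fin_two]
    simp only [Matrix.sub_apply, Matrix.one_apply_eq]
    refine pow_eq_zero_iff two_ne_zero |>.1 ?_
    linear_combination h00 + h11 + 2 * hd
  rw [Matrix.det_fin_two] at hd ⊢
  rw [Matrix.trace_fin_two] at ht ⊢
  simp only [Matrix.sub_apply, Matrix.one_apply_eq,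
    Matrix.one_apply_ne (show (0 : Fin 2) ≠ 1 by decide),
    Matrix.one_apply_ne (show (1 : Fin 2) ≠ 0 by decide)] at ht hd
  exact ⟨by linear_combination ht, by linear_combination hd + ht⟩

section Points

variable {θK : H.algebra →+* KBar O} (P : Point (p := p) H hS θK)

/-- If the point is trivial on the diamond operators at `v ∣ L`, then `v²` does not divide the
level of its newform. -/
theorem Point.sq_not_dvd {v : ℕ} (hv : v.Prime) (hvL : v ∣ L)
    (hψ : ∀ u : (ZMod L)ˣ, ((u : ZMod L).cast : ZMod (L / v)) = 1 → θK (diaA H (ψ u)) = 1) :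
    ¬ v ^ 2 ∣ P.M := fun h => by
  obtain ⟨u, hu, hne⟩ := (P.sq_dvd v hv hvL).1 h
  exact hne (hψ u hu)

/-- Inertia at `v ≠ p` has trace `2` and determinant `1` if the model is unipotent at `v`
whenever `v` divides its level. -/
theorem Point.unipotent {v : ℕ} (hv : v.Prime) (hvp : v ≠ p)
    (hU : v ∣ P.M → UnipotentAt (D P.M) v) {A : ValuationSubring (AlgebraicClosure ℚ)}
    (hA : A.LiesOverPrime v) {σ : AbsGal} (hσ : σ ∈ A.inertiaSubgroupIn ℚ) :
    (P.rep D σ).trace = 2 ∧ (P.rep D σ).det = 1 := by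
  by_cases h : v ∣ P.M
  · have hsq : ((D P.M).eigenAction P.ι P.θ' σ - 1) ^ 2 = 0 := by
      refine LinearMap.ext fun w => Subtype.ext ?_
      have h1 := congrArg P.ι.mapMatrix (hU h A hA σ hσ)
      rw [pow_two, map_mul, map_sub, map_one, map_zero, RingHom.mapMatrix_apply] at h1
      have h2 := congrArg (fun m : Matrix (Fin (D P.M).d) (Fin (D P.M).d) P.R => m.mulVec w.1) h1
      simp only [Matrix.zero_mulVec, ← Matrix.mulVec_mulVec, Matrix.sub_mulVec,
        Matrix.one_mulVec, Matrix.mulVec_sub] at h2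
      simp only [pow_two, Module.End.mul_apply, LinearMap.sub_apply, Module.End.one_apply,
        AddSubgroupClass.coe_sub, GaloisReps.HeckeGaloisModel.coe_eigenAction,
        LinearMap.zero_apply, ZeroMemClass.coe_zero, Matrix.mulVec_sub] at h2 ⊢
      exact h2
    let φ : Module.End P.R (GaloisReps.eigenspace (D P.M).hecke P.θ') →+*
        Matrix (Fin 2) (Fin 2) (KBar O) :=
      P.j.mapMatrix.comp
        (LinearMap.toMatrixAlgEquiv ((D P.M).eigenBasis P.θ')).toAlgHom.toRingHom
    have h4 : (P.rep D σ - 1) ^ 2 = 0 := by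
      rw [show P.rep D σ = φ ((D P.M).eigenAction P.ι P.θ' σ) from rfl, ← map_one φ, ← map_sub,
        ← map_pow, hsq, map_zero]
    exact trace_det_of_unipotent h4
  · have hne : ¬ v ∣ P.M * p := fun h' => (hv.dvd_mul.1 h').elim h fun h'' =>
      hvp ((Nat.prime_dvd_prime_iff_eq hv Fact.out).1 h'')
    rw [P.rep_eq_one ((D P.M).gal_unramified v hv hne A hA σ hσ)]
    exact ⟨by simp, Matrix.det_one⟩

theorem Point.trace_sq_frobenius {v : ℕ} (hv : v.Prime) (hvp : v ≠ p) (hvM : v ∣ P.M)
    (hT : ToricSquareAt (D P.M) v)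
    {A : ValuationSubring (AlgebraicClosure ℚ)} (hA : A.LiesOverPrime v) {σ : AbsGal}
    (hσ : A.IsFrobeniusAt σ v) : (P.rep D σ).trace ^ 2 = ((v : KBar O) + 1) ^ 2 := by
  have hR : P.M / v ∣ P.M := Nat.div_dvd_of_dvd hvM
  have hRq : P.M / v * v = P.M := Nat.div_mul_cancel hvM
  have : NeZero (P.M / v) := ⟨fun h => NeZero.ne P.M (by rw [← hRq, h, zero_mul])⟩
  obtain ⟨t, ht, htg⟩ := NewformLocal.exists_killsOld_ne_zero P.isNewform hR
    (Nat.div_lt_self (Nat.pos_of_ne_zero (NeZero.ne P.M)) hv.one_lt).ne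
  obtain ⟨ℓ, hℓ, hℓT, hne⟩ :=
    NewformLocal.exists_coeff_ne_succ P.isNewform.1 (P.M * p).primeFactors
  have hℓN : ¬ ℓ ∣ P.M * p := fun h => hℓT (Nat.mem_primeFactors.mpr
    ⟨hℓ, h, mul_ne_zero (NeZero.ne P.M) (Fact.out : p.Prime).ne_zero⟩)
  have hθt : P.θ' (toricOp t hℓ) ≠ 0 := fun h0 => by
    have h2 := P.emb_θ' (toricOp t hℓ)
    rw [h0, map_zero, map_zero, toricOp, map_mul, map_sub, map_natCast,
      NewformLocal.eigenChar_toFull, eq_comm, mul_eq_zero] at h2
    have hℓM : ¬ ℓ ∣ P.M := fun h => hℓN (dvd_mul_of_dvd_left h p)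
    have h3 : ConductorLevel.eigenChar P.isNewform.1 ∅ (HeckeDuality.heckeOp P.M 2 ℓ hℓ) =
        ModularFormClass.qCoeff P.g ℓ := by
      rw [HeckeDuality.heckeOp, dif_neg hℓM]
      exact ConductorLevel.eigenChar_T P.isNewform.1 hℓ hℓM _
    rw [h3, sub_eq_zero, Nat.cast_add, Nat.cast_one] at h2
    exact h2.elim htg hne
  have key := NewformLocal.charpoly_frobenius_bad (D P.M) P.ι P.θ' P.p_mem hv hvp hR hRq hT t ht
    hℓ hθt hA hσ
  have htr : (P.rep D σ).trace = P.j ((v : P.R) + 1) ∨
      (P.rep D σ).trace = P.j (-((v : P.R) + 1)) := by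
    rw [P.trace_rep D, LinearMap.trace_eq_matrix_trace P.R ((D P.M).eigenBasis P.θ'),
      Matrix.trace_eq_neg_charpoly_coeff, LinearMap.charpoly_toMatrix]
    rcases key with h | h
    · exact Or.inl (by rw [h]; simp [Fintype.card_fin])
    · exact Or.inr (by rw [h]; simp [Fintype.card_fin])
  rcases htr with h | h <;> rw [h] <;> simp [add_comm]
  ring

end Points

variable [IsAdicComplete (maximalIdeal O) O] [Finite (ResidueField O)] [CharZero O]
  [NeZero L] [Finite Δ] [IsLocalRing H.algebra]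
  {D} {pt : ∀ θ : H.algebra →ₐ[O] KBar O, Point (p := p) H hS θ.toRingHom} (G : Glued D pt)

/-- At a prime `v` of the level where `ψ` may be nontrivial: at every point an inertia element
acting on the `v`-th roots of unity as `u` has trace `x + x⁻¹`, `x` the value of the diamond of
`ψ u ^ halfInvExp Δ`. -/
def TwistedInertia (D : ∀ (M : ℕ) [NeZero M], HeckeGaloisModel M p)
    (pt : ∀ θ : H.algebra →ₐ[O] KBar O, Point (p := p) H hS θ.toRingHom) (v : ℕ) : Prop :=
  ∀ A : ValuationSubring (AlgebraicClosure ℚ), A.LiesOverPrime v →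
    ∀ σ ∈ A.inertiaSubgroupIn ℚ, ∀ a : ℕ,
      (∀ μ : AlgebraicClosure ℚ, μ ^ v = 1 → σ μ = μ ^ a) →
      ∀ u : (ZMod L)ˣ, ((u : ZMod L).cast : ZMod (L / v)) = 1 →
        ((u : ZMod L).cast : ZMod v) = a →
        ∀ θ : H.algebra →ₐ[O] KBar O, ((pt θ).rep D σ).trace =
          θ (diaA H (ψ u ^ halfInvExp Δ)) + θ (diaA H (ψ u ^ halfInvExp Δ)⁻¹)

omit [IsAdicComplete (maximalIdeal O) O] [CharZero O] [NeZero L] [Finite Δ]
  [IsLocalRing H.algebra] in
/-- A homomorphism to `ℂ` factors through the algebraic closure of the fraction field. -/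
theorem exists_point_of_complex [Algebra.IsIntegral O H.algebra] (θ : H.algebra →+* ℂ) :
    ∃ (f : KBar O →+* ℂ) (θ' : H.algebra →ₐ[O] KBar O), ∀ x, θ x = f (θ' x) := by
  let φ : O →+* ℂ := θ.comp (algebraMap O H.algebra)
  have hφ : Function.Injective φ := by
    rw [RingHom.injective_iff_ker_eq_bot]
    by_contra h0
    have : (RingHom.ker φ).IsMaximal := (RingHom.ker_isPrime φ).isMaximal h0
    have hm := eq_maximalIdeal this
    have hn : (Nat.card (ResidueField O) : ResidueField O) = 0 := by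
      rw [← nsmul_one]
      exact card_nsmul_eq_zero'
    rw [← map_natCast (residue O), residue_eq_zero_iff, ← hm, RingHom.mem_ker, map_natCast,
      Nat.cast_eq_zero] at hn
    exact Nat.card_pos.ne' hn
  let : Algebra O ℂ := φ.toAlgebra
  have : Module.IsTorsionFree O ℂ := Module.isTorsionFree_iff_algebraMap_injective.2 hφ
  have : Module.IsTorsionFree O (KBar O) :=
    Module.isTorsionFree_iff_algebraMap_injective.2 (by
      rw [IsScalarTower.algebraMap_eq O (FractionRing O)]
      exact (algebraMap (FractionRing O) _).injective.comp (IsFractionRing.injective O _))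
  have : Algebra.IsAlgebraic O (KBar O) :=
    (IsFractionRing.comap_isAlgebraic_iff (A := O) (K := FractionRing O)).2 inferInstance
  let f : KBar O →ₐ[O] ℂ := IsAlgClosed.lift
  have hrange : ∀ x, θ x ∈ f.range := fun x => by
    obtain ⟨q, hq, hq0⟩ := Algebra.IsIntegral.isIntegral (R := O) x
    have hsplit : (q.map (algebraMap O (KBar O))).Splits := IsAlgClosed.splits _
    have hroot : θ x ∈ (q.map φ).roots := by
      rw [Polynomial.mem_roots ((hq.map φ).ne_zero), Polynomial.IsRoot, Polynomial.eval_map]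
      have h := congrArg θ hq0
      rwa [map_zero, Polynomial.hom_eval₂] at h
    have hmap : q.map φ = (q.map (algebraMap O (KBar O))).map f.toRingHom := by
      rw [Polynomial.map_map]
      exact congrArg (fun g => q.map g) f.comp_algebraMap.symm
    rw [hmap, hsplit.roots_map, Multiset.mem_map] at hroot
    obtain ⟨y, -, hy⟩ := hroot
    exact ⟨y, hy⟩
  let e : KBar O ≃ₐ[O] f.range := AlgEquiv.ofInjective f f.toRingHom.injective
  let θc : H.algebra →ₐ[O] f.range :=
    AlgHom.codRestrict { θ with commutes' := fun r => rfl } f.range hrange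
  refine ⟨f.toRingHom, e.symm.toAlgHom.comp θc, fun x => ?_⟩
  exact (congrArg Subtype.val (e.apply_symm_apply (θc x))).symm

omit [IsAdicComplete (maximalIdeal O) O] [NeZero L] in
/-- The squared trace of a Frobenius element at a prime at which the point is special. -/
theorem Glued.trace_sq_frobenius {v : ℕ} (hv : v.Prime) (hvL : v ∣ L) (hvp : v ≠ p)
    (hncl : ¬ IsCongruentLevel S abar (L / v))
    (hM : ∀ (M : ℕ) [NeZero M], M ∣ L ^ 2 → v ∣ M → ¬ v ^ 2 ∣ M →
      UnipotentAt (D M) v ∧ ToricSquareAt (D M) v)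
    {A : ValuationSubring (AlgebraicClosure ℚ)} (hA : A.LiesOverPrime v) {σ : AbsGal}
    (hσ : A.IsFrobeniusAt σ v) (θ : H.algebra →+* ℂ)
    (hθ : ∀ u : (ZMod L)ˣ, ((u : ZMod L).cast : ZMod (L / v)) = 1 → θ (diaA H (ψ u)) = 1) :
    θ (LinearMap.trace H.algebra G.rep.V (G.rep.ρ σ)) ^ 2 = ((v : ℂ) + 1) ^ 2 := by
  obtain ⟨f, θ', hf⟩ := exists_point_of_complex θ
  have hdvd : v ∣ (pt θ').M := by_contra fun h => hncl ((pt θ').congruent v hv hvL h)
  have h2 : ¬ v ^ 2 ∣ (pt θ').M := (pt θ').sq_not_dvd hv hvL fun u hu =>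
    f.injective ((hf _).symm.trans ((hθ u hu).trans f.map_one.symm))
  have key := (pt θ').trace_sq_frobenius D hv hvp hdvd
    (hM _ (pt θ').dvd hdvd h2).2 hA hσ
  rw [G.trace_rep, hf, G.trace_eq, ← map_pow, key, map_pow, map_add, map_natCast, map_one]

end Fermat.Agent.RT.Glue
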