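import Fermat.Agent.RT.Glue.MatrixUnits
import Mathlib.Algebra.Order.Ring.Star
import Mathlib.RingTheory.Henselian
import Mathlib.RingTheory.RegularLocalRing.Defs
import Mathlib.RingTheory.SimpleRing.Principal

/-!
# A representation over a ring from pointwise representations with traces in the ring

Let `A` be a complete local ring in which `2` is invertible, embedded in a product of fields, and
let a group have two-dimensional representations over the fields whose traces come from `A` and
whose residual representation spans the matrices. They come from a representation over `A`.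
-/

set_option autoImplicit false

noncomputable section

open IsLocalRing Matrix

namespace Fermat.Agent.RT.Glue

variable {A : Type} [CommRing A] [IsLocalRing A] [IsAdicComplete (maximalIdeal A) A]
  {G : Type} [Group G] {ι : Type} (K : ι → Type) [∀ i, Field (K i)] (π : ∀ i, A →+* K i)
  (ρ : ∀ i, G →* Matrix (Fin 2) (Fin 2) (K i)) (tA : G → A)
  (rbar : G →* Matrix (Fin 2) (Fin 2) (ResidueField A))

/-- A monic quadratic reducing to `X ^ 2 - X` has a root reducing to one, and there the
derivative is invertible. -/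
private theorem exists_root_residue_one {t d : A} (htb : residue A t = 1) (hdb : residue A d = 0) :
    ∃ α ui : A, α ^ 2 - t * α + d = 0 ∧ residue A α = 1 ∧ ui * (2 * α - t) = 1 := by
  let P : Polynomial A := Polynomial.X ^ 2 - Polynomial.C t * Polynomial.X + Polynomial.C d
  have hP : P.Monic := by simp only [P]; monicity!
  obtain ⟨α, hα, hα1⟩ := HenselianRing.is_henselian (I := maximalIdeal A) P hP 1
    (by rw [← residue_eq_zero_iff]; simp [P, htb, hdb]) (by
      have : residue A (P.derivative.eval 1) = 1 := by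
        simp [P, htb]
        try norm_num
      show IsUnit (residue A (P.derivative.eval 1))
      rw [this]; exact isUnit_one)
  have hαeq : α ^ 2 - t * α + d = 0 := by simpa [P, Polynomial.IsRoot] using hα
  have hαb : residue A α = 1 := by
    rw [← sub_eq_zero, ← map_one (residue A), ← map_sub, residue_eq_zero_iff]; exact hα1
  have hu : IsUnit (2 * α - t) := by
    refine (residue_ne_zero_iff_isUnit _).1 ?_
    rw [map_sub, map_mul, htb, hαb, map_ofNat, mul_one]
    norm_num
  obtain ⟨u, hu'⟩ := hu
  exact ⟨α, ↑u⁻¹, hαeq, hαb, by rw [← hu', Units.inv_mul]⟩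

omit [IsAdicComplete (maximalIdeal A) A] in
/-- Residual matrices spanning everything are the values of the group algebra. -/
private theorem surjective_of_span_eq_top
    (hspan : Submodule.span (ResidueField A) (Set.range rbar) = ⊤)
    {Φb : MonoidAlgebra A G →+* Matrix (Fin 2) (Fin 2) (ResidueField A)}
    (hΦb1 : ∀ g (c : A), Φb (MonoidAlgebra.single g c) = residue A c • rbar g) :
    Function.Surjective Φb := by
  intro X
  have hX : X ∈ Submodule.span (ResidueField A) (Set.range rbar) := by
    rw [hspan]; trivial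
  induction hX using Submodule.span_induction with
  | mem x hx =>
    obtain ⟨g, rfl⟩ := hx
    exact ⟨MonoidAlgebra.single g 1, by rw [hΦb1, map_one, one_smul]⟩
  | zero => exact ⟨0, map_zero _⟩
  | add x y _ _ hx hy =>
    obtain ⟨a, ha⟩ := hx; obtain ⟨b, hb⟩ := hy
    exact ⟨a + b, by rw [map_add, ha, hb]⟩
  | smul c x _ hx =>
    obtain ⟨a, ha⟩ := hx
    obtain ⟨c', rfl⟩ := residue_surjective c
    refine ⟨MonoidAlgebra.single 1 c' * a, ?_⟩
    rw [map_mul, hΦb1, map_one rbar, ha, smul_mul_assoc, one_mul]

/-- A `2 × 2` matrix over a field of odd or zero characteristic has its determinant fixed by the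
traces of its powers. -/
private theorem det_eq_of_trace_eq {F : Type*} [Field F] (h2 : (2 : F) ≠ 0)
    {X Y : Matrix (Fin 2) (Fin 2) F} (h1 : X.trace = Y.trace)
    (h2' : (X * X).trace = (Y * Y).trace) : X.det = Y.det := by
  simp only [Matrix.trace_fin_two, Matrix.mul_apply, Fin.sum_univ_two] at h1 h2'
  refine mul_left_cancel₀ h2 ?_
  rw [Matrix.det_fin_two, Matrix.det_fin_two]
  linear_combination (X 0 0 + X 1 1 + (Y 0 0 + Y 1 1)) * h1 - h2'

/-- A matrix with the coordinates of the identity is the identity. -/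
private theorem eq_one_of_coord {F : Type*} [Field F] {E Y Z X : Matrix (Fin 2) (Fin 2) F}
    (het : E.trace = 1) (hed : E.det = 0) (hc : (E * Z * (1 - E) * Y * E).trace = 1)
    (hco : ∀ a b, (X * munit E Y Z b a).trace = if a = b then 1 else 0) : X = 1 := by
  have hzero : ∀ U : Matrix (Fin 2) (Fin 2) F, ((X - 1) * U).trace = 0 := by
    intro U
    set f := munit E Y Z
    have hk : ∀ a b, ((X - 1) * f b a).trace = 0 := fun a b => by
      rw [sub_mul, one_mul, Matrix.trace_sub, hco, coord_one het hed, sub_self]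
    have h11 := coord_mul het hed hc (X - 1) U
    have : ((X - 1) * U).trace = ((X - 1) * U * f 0 0).trace + ((X - 1) * U * f 1 1).trace := by
      rw [← Matrix.trace_add, ← mul_add]
      simp [f, munit]
    rw [this, h11, h11]
    simp [f, hk]
  refine sub_eq_zero.1 ?_
  ext a b
  have := hzero (Matrix.single b a 1)
  rw [Matrix.trace_mul_single] at this
  simpa using this

/-- A lift of the first residual idempotent with trace one and determinant zero over every
field, made from an arbitrary lift `x` by an affine change. -/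
private theorem exists_idempotent_lift {R : Type*} [Ring R] (s : A → R) (τ : R → A)
    (Φ : ∀ i, R →+* Matrix (Fin 2) (Fin 2) (K i))
    (Φb : R →+* Matrix (Fin 2) (Fin 2) (ResidueField A))
    (hs : ∀ i c, Φ i (s c) = π i c • 1) (hsb : ∀ c, Φb (s c) = residue A c • 1)
    (htrΦ : ∀ i w, (Φ i w).trace = π i (τ w)) (htrb : ∀ w, (Φb w).trace = residue A (τ w))
    (h2 : IsUnit (2 : A)) {x : R} (hx : Φb x = !![1, 0; 0, 0]) :
    ∃ e : R, (∀ i, (Φ i e).trace = 1 ∧ (Φ i e).det = 0) ∧ Φb e = !![1, 0; 0, 0] := by
  obtain ⟨u2, hu2⟩ := h2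
  set t := τ x with htdef
  -- `d` is the determinant of `x`; residually trace and determinant are `1` and `0`
  set d : A := (↑u2⁻¹ : A) * (t ^ 2 - τ (x * x)) with hddef
  have hd2 : 2 * d = t ^ 2 - τ (x * x) := by
    rw [hddef, ← mul_assoc, ← hu2, Units.mul_inv, one_mul]
  have htb : residue A t = 1 := by rw [← htrb, hx]; simp [Matrix.trace_fin_two]
  have hdb : residue A d = 0 := by
    have h4 : residue A (t ^ 2 - τ (x * x)) = 0 := by
      rw [map_sub, map_pow, htb, ← htrb, map_mul, hx]
      simp [Matrix.trace_fin_two]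
    rw [hddef, map_mul, h4, mul_zero]
  -- Hensel: a root `α ≡ 1` of `X² - t X + d`; rescale `x` to eigenvalues `1, 0`
  obtain ⟨α, ui, hαeq, hαb, hui⟩ := exists_root_residue_one htb hdb
  refine ⟨s ui * (x - s (t - α)), fun i => ?_, ?_⟩
  -- the determinant of `x` at each field is `d`
  · have hdet : (Φ i x).det = π i d := by
      have h2' : (π i) 2 * (Φ i x).det = π i (2 * d) := by
        rw [hd2, map_sub, map_pow, ← htrΦ, ← htrΦ, map_mul, map_ofNat, Matrix.det_fin_two,
          Matrix.trace_fin_two, Matrix.trace_fin_two]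
        simp [Matrix.mul_apply, Fin.sum_univ_two]
        ring
      rw [map_mul] at h2'
      exact mul_left_cancel₀ ((u2.isUnit.map (π i)).ne_zero |> fun h => hu2 ▸ h) h2'
    have ht' := htrΦ i x
    have hroot := congrArg (π i) hαeq
    simp only [map_add, map_sub, map_mul, map_pow, map_zero] at hroot
    have huinv : π i ui * (2 * π i α - π i t) = 1 := by
      rw [← map_ofNat (π i) 2, ← map_mul, ← map_sub, ← map_mul, hui, map_one]
    rw [Matrix.trace_fin_two] at ht'
    rw [Matrix.det_fin_two] at hdet
    constructor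
    · simp [map_mul, map_sub, hs, Matrix.trace_fin_two]
      linear_combination (π i ui) * ht' + huinv
    · simp [map_mul, map_sub, hs, Matrix.det_fin_two, -mul_eq_zero]
      linear_combination (π i ui) ^ 2 * (hdet - (π i t - π i α) * ht' + hroot)
  · have hub : residue A ui = 1 := by
      have := congrArg (residue A) hui
      rw [map_mul, map_sub, map_mul, htb, hαb, map_one, map_ofNat, mul_one] at this
      rw [← this]; norm_num
    simp [map_mul, map_sub, hsb, hx, hub, htb, hαb]

/-- The linear extension of `tA` to the group algebra. -/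
private def traceForm : MonoidAlgebra A G →ₗ[A] A :=
  (Finsupp.linearCombination A tA).comp (MonoidAlgebra.coeffLinearEquiv A).toLinearMap

omit [IsLocalRing A] [IsAdicComplete (maximalIdeal A) A] [Group G] in
private theorem traceForm_single (g : G) (c : A) :
    traceForm tA (MonoidAlgebra.single g c) = c * tA g := by
  show Finsupp.linearCombination A tA (MonoidAlgebra.coeff (MonoidAlgebra.single g c)) = _
  rw [MonoidAlgebra.coeff_single, Finsupp.linearCombination_single, smul_eq_mul]

/-- The map of the group algebra to matrices given by a representation and a map of the scalars. -/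
private def matrixMap {R : Type} [CommRing R] (f : A →+* R) (r : G →* Matrix (Fin 2) (Fin 2) R) :
    MonoidAlgebra A G →+* Matrix (Fin 2) (Fin 2) R :=
  MonoidAlgebra.liftNCRingHom ((Matrix.scalar (Fin 2)).comp f) r
    fun _ _ => Matrix.scalar_commute _ (fun _ => Commute.all _ _) _

omit [IsLocalRing A] [IsAdicComplete (maximalIdeal A) A] in
private theorem matrixMap_single {R : Type} [CommRing R] (f : A →+* R)
    (r : G →* Matrix (Fin 2) (Fin 2) R) (g : G) (c : A) :
    matrixMap f r (MonoidAlgebra.single g c) = f c • r g := by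
  simp [matrixMap, MonoidAlgebra.liftNCRingHom, Matrix.smul_eq_diagonal_mul]

omit [IsLocalRing A] [IsAdicComplete (maximalIdeal A) A] in
/-- When the traces of the representation come from `tA`, so do those on the group algebra. -/
private theorem trace_matrixMap {R : Type} [CommRing R] {f : A →+* R}
    {r : G →* Matrix (Fin 2) (Fin 2) R} (h : ∀ σ, (r σ).trace = f (tA σ))
    (w : MonoidAlgebra A G) : (matrixMap f r w).trace = f (traceForm tA w) := by
  induction w using MonoidAlgebra.induction_linear with
  | zero => simp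
  | add x y hx hy => rw [map_add, map_add, Matrix.trace_add, hx, hy, map_add]
  | single g c =>
    rw [matrixMap_single, traceForm_single, Matrix.trace_smul, h, map_mul, smul_eq_mul]

omit [IsLocalRing A] [IsAdicComplete (maximalIdeal A) A] in
/-- Coordinates in matrix units over every field, with values in `A`, form a representation
over `A`. -/
private theorem exists_coordHom (hπ : ∀ x : A, (∀ i, π i x = 0) → x = 0)
    {E Y Z : ∀ i, Matrix (Fin 2) (Fin 2) (K i)} (hE : ∀ i, (E i).trace = 1 ∧ (E i).det = 0)
    (hc : ∀ i, (E i * Z i * (1 - E i) * Y i * E i).trace = 1) (F : G → Matrix (Fin 2) (Fin 2) A)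
    (hF : ∀ i σ a b, π i (F σ a b) = (ρ i σ * munit (E i) (Y i) (Z i) b a).trace) :
    ∃ R : G →* Matrix (Fin 2) (Fin 2) A, ∀ σ, R σ = F σ := by
  have hmul : ∀ σ σ', F (σ * σ') = F σ * F σ' := by
    intro σ σ'
    ext a b
    refine sub_eq_zero.1 (hπ _ fun i => ?_)
    rw [map_sub, Matrix.mul_apply, map_sum, sub_eq_zero, hF, map_mul (ρ i),
      coord_mul (hE i).1 (hE i).2 (hc i)]
    exact Finset.sum_congr rfl fun k _ => by rw [map_mul, hF, hF]
  have hone : F 1 = 1 := by
    ext a b
    refine sub_eq_zero.1 (hπ _ fun i => ?_)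
    rw [map_sub, hF, map_one, one_mul, coord_one (hE i).1 (hE i).2, Matrix.one_apply]
    split_ifs <;> simp
  exact ⟨{ toFun := F, map_one' := hone, map_mul' := hmul }, fun _ => rfl⟩

omit [IsLocalRing A] [IsAdicComplete (maximalIdeal A) A] in
/-- If `tA` is invariant under `σ` modulo `I`, so is its linear extension. -/
private theorem traceForm_sub_mem {I : Ideal A} {σ : G} (hI : ∀ g, tA (σ * g) - tA g ∈ I)
    (w : MonoidAlgebra A G) :
    traceForm tA (MonoidAlgebra.single σ 1 * w) -
      traceForm tA (MonoidAlgebra.single 1 1 * w) ∈ I := by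
  induction w using MonoidAlgebra.induction_linear with
  | zero => simp
  | add p q hp hq =>
    rw [mul_add, mul_add, map_add, map_add, add_sub_add_comm]
    exact I.add_mem hp hq
  | single g r =>
    rw [MonoidAlgebra.single_mul_single, MonoidAlgebra.single_mul_single, traceForm_single,
      traceForm_single, one_mul, one_mul, ← mul_sub]
    exact I.mul_mem_left _ (hI g)

/-- The representation over `A`. -/
theorem exists_glue (h2 : IsUnit (2 : A))
    (hπ : ∀ x : A, (∀ i, π i x = 0) → x = 0)
    (htr : ∀ i σ, (ρ i σ).trace = π i (tA σ))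
    (hres : ∀ σ, (rbar σ).trace = residue A (tA σ))
    (hspan : Submodule.span (ResidueField A) (Set.range rbar) = ⊤) :
    ∃ R : G →* Matrix (Fin 2) (Fin 2) A,
      (∀ σ, (R σ).map (residue A) = rbar σ) ∧
      (∀ σ, (R σ).trace = tA σ) ∧
      (∀ i σ, π i (R σ).det = (ρ i σ).det) ∧
      (∀ i σ, (R σ).map (π i) = 1 ↔ ρ i σ = 1) ∧
      ∀ (I : Ideal A) σ, (∀ g, tA (σ * g) - tA g ∈ I) →
        ∀ a b, R σ a b - (1 : Matrix (Fin 2) (Fin 2) A) a b ∈ I := by
  classical
  let τ : MonoidAlgebra A G →ₗ[A] A := traceForm tA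
  let Φ : ∀ i, MonoidAlgebra A G →+* Matrix (Fin 2) (Fin 2) (K i) := fun i => matrixMap (π i) (ρ i)
  let Φb : MonoidAlgebra A G →+* Matrix (Fin 2) (Fin 2) (ResidueField A) :=
    matrixMap (residue A) rbar
  have hΦ1 : ∀ i g (c : A), Φ i (MonoidAlgebra.single g c) = π i c • ρ i g :=
    fun i => matrixMap_single _ _
  have hΦb1 : ∀ g (c : A), Φb (MonoidAlgebra.single g c) = residue A c • rbar g :=
    matrixMap_single _ _
  have htrΦ : ∀ i w, (Φ i w).trace = π i (τ w) := fun i => trace_matrixMap tA (htr i)
  have htrb : ∀ w, (Φb w).trace = residue A (τ w) := trace_matrixMap tA hres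
  have hsurj : Function.Surjective Φb := surjective_of_span_eq_top rbar hspan hΦb1
  obtain ⟨x, hx⟩ := hsurj !![1, 0; 0, 0]
  obtain ⟨y, hy⟩ := hsurj !![0, 0; 1, 0]
  obtain ⟨z₀, hz₀⟩ := hsurj !![0, 1; 0, 0]
  obtain ⟨u2, hu2⟩ := h2
  obtain ⟨e, hΦe, hΦbe⟩ := exists_idempotent_lift K π (fun c => MonoidAlgebra.single (1 : G) c) τ Φ
    Φb (fun i c => by rw [hΦ1, map_one]) (fun c => by rw [hΦb1, map_one]) htrΦ htrb ⟨u2, hu2⟩ hx
  have hΦs : ∀ i (c : A), Φ i (MonoidAlgebra.single 1 c) = π i c • 1 := fun i c => by
    rw [hΦ1, map_one]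
  -- normalise `z`
  have h1e : (1 : Matrix (Fin 2) (Fin 2) (ResidueField A)) - !![1, 0; 0, 0] = !![0, 0; 0, 1] := by
    ext a b; fin_cases a <;> fin_cases b <;> simp
  set c := τ (e * z₀ * (1 - e) * y * e) with hcdef
  have hcb : residue A c = 1 := by
    rw [hcdef, ← htrb, map_mul, map_mul, map_mul, map_mul, map_sub, map_one, hΦbe, hy, hz₀, h1e]
    simp [Matrix.trace_fin_two]
  obtain ⟨uc, huc⟩ := (residue_ne_zero_iff_isUnit c).1 (by rw [hcb]; exact one_ne_zero)
  obtain ⟨z, hzdef⟩ : ∃ z : MonoidAlgebra A G, z = MonoidAlgebra.single 1 (↑uc⁻¹ : A) * z₀ :=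
    ⟨_, rfl⟩
  have hc : ∀ i, (Φ i e * Φ i z * (1 - Φ i e) * Φ i y * Φ i e).trace = 1 := by
    intro i
    have h3 : π i (↑uc⁻¹ : A) * (Φ i (e * z₀ * (1 - e) * y * e)).trace = 1 := by
      rw [htrΦ, ← map_mul, ← hcdef, ← huc, Units.inv_mul, map_one]
    simpa [hzdef, map_mul, map_sub, map_one, hΦs, smul_mul_assoc, mul_smul_comm,
      Matrix.trace_smul] using h3
  have hΦbz : Φb z = !![0, 1; 0, 0] := by
    have hub : residue A (↑uc⁻¹ : A) = 1 := by
      have := congrArg (residue A) (uc.inv_mul)
      rwa [map_mul, huc, hcb, map_one, mul_one] at this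
    simp [hzdef, map_mul, hΦb1, hz₀, hub]
  let F : G → Matrix (Fin 2) (Fin 2) A := fun σ =>
    Matrix.of fun a b => τ (MonoidAlgebra.single σ 1 * munit e y z b a)
  have hF : ∀ i σ a b, π i (F σ a b) =
      (ρ i σ * munit (Φ i e) (Φ i y) (Φ i z) b a).trace := by
    intro i σ a b
    show π i (τ _) = _
    rw [← htrΦ, map_mul, munit_map, hΦ1, map_one, one_smul]
  obtain ⟨R, hR⟩ := exists_coordHom K π ρ hπ hΦe hc F hF
  have htrR : ∀ σ, (R σ).trace = tA σ := by
    intro σ
    rw [hR, Matrix.trace_fin_two]
    show τ (_ * e) + τ (_ * (1 - e)) = _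
    rw [← map_add, ← mul_add, add_sub_cancel, mul_one, traceForm_single, one_mul]
  refine ⟨R, fun σ => ?_, htrR, fun i σ => ?_, fun i σ => ⟨fun h => ?_, fun h => ?_⟩,
    fun I σ hI a b => ?_⟩
  · ext a b
    rw [hR]
    show residue A (τ _) = _
    rw [← htrb, map_mul, munit_map, hΦb1, map_one, one_smul, hΦbe, hy, hΦbz]
    fin_cases a <;> fin_cases b <;>
      simp [munit, h1e, Matrix.trace_fin_two, Matrix.mul_apply, Fin.sum_univ_two]
  · have h2i : (2 : K i) ≠ 0 := by
      rw [← map_ofNat (π i) 2, ← hu2]
      exact (u2.isUnit.map (π i)).ne_zero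
    have htri : ∀ g, ((R g).map (π i)).trace = (ρ i g).trace := fun g => by
      rw [htr, ← htrR, Matrix.trace_fin_two, Matrix.trace_fin_two, map_add]
      rfl
    rw [RingHom.map_det, RingHom.mapMatrix_apply]
    refine det_eq_of_trace_eq h2i (htri σ) ?_
    rw [← Matrix.map_mul, ← map_mul, ← map_mul, htri]
  · -- `ρ i σ` is determined by its coordinates
    have hco : ∀ a b, (ρ i σ * munit (Φ i e) (Φ i y) (Φ i z) b a).trace = if a =
        b then 1 else 0 := by
      intro a b
      rw [← hF, ← hR, show π i (R σ a b) = ((R σ).map (π i)) a b from rfl, h, Matrix.one_apply]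
    exact eq_one_of_coord (hΦe i).1 (hΦe i).2 (hc i) hco
  · ext a b
    rw [Matrix.map_apply, hR, hF, h, one_mul,
      coord_one (hΦe i).1 (hΦe i).2, Matrix.one_apply]
  · rw [← map_one R, hR, hR]
    exact traceForm_sub_mem tA hI _

end Fermat.Agent.RT.Glue
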