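import Fermat.Agent.RT.Glue.Basic
import Fermat.Agent.GaloisReps.Flat
import Fermat.Agent.EC.Rep.Local.Flat

/-!
# Flatness at `p` of the glued representation

A relation among Galois elements holding on every model modulo a high power of `p` holds modulo a
given power of the maximal ideal, so the finite levels are subquotients of powers of the levels of
the models.
-/

set_option autoImplicit false

noncomputable section

open IsLocalRing Module
open scoped MonoidAlgebra

namespace Fermat.Agent.RT.Glue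

open GaloisReps (AbsGal FullHecke HeckeGaloisModel galAlg galLevel ModelLevel repAlg)
open FiniteFlat (GalOrder)

section Model

variable {N p : ℕ} [NeZero N] [Fact p.Prime] (D : HeckeGaloisModel N p)
  {O : Type} [CommRing O] [IsDomain O] [IsDiscreteValuationRing O] [CharZero O]
  (ι : ℤ_[p] →+* O) (θ : FullHecke N →+* O)

/-- The group ring on the eigen-lattice. -/
def eigenAlg : ℤ[AbsGal] →ₐ[ℤ] Module.End O (GaloisReps.eigenspace D.hecke θ) :=
  MonoidAlgebra.lift ℤ _ AbsGal (D.eigenAction ι θ)

/-- The group ring on the completed lattice. -/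
def latticeAlg : ℤ[AbsGal] →ₐ[ℤ] Matrix (Fin D.d) (Fin D.d) ℤ_[p] :=
  MonoidAlgebra.lift ℤ _ AbsGal D.gal

theorem galAlg_eq (M : ℕ) (y : ℤ[AbsGal]) :
    galAlg D M y = (PadicInt.toZModPow M).mapMatrix (latticeAlg D y) := by
  induction y using MonoidAlgebra.induction_linear with
  | zero => rw [map_zero, map_zero, map_zero]
  | add a b ha hb => rw [map_add, map_add, map_add, ha, hb]
  | single g c =>
    rw [GaloisReps.galAlg_single, latticeAlg, MonoidAlgebra.lift_single, map_zsmul,
      GaloisReps.galLevel_apply]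

omit [IsDomain O] [IsDiscreteValuationRing O] [CharZero O] in
theorem coe_eigenAlg (y : ℤ[AbsGal]) (v : GaloisReps.eigenspace D.hecke θ) :
    (eigenAlg D ι θ y v : Fin D.d → O) =
      (ι.mapMatrix (latticeAlg D y)).mulVec (v : Fin D.d → O) := by
  induction y using MonoidAlgebra.induction_linear with
  | zero => simp
  | add a b ha hb =>
    rw [map_add, LinearMap.add_apply, Submodule.coe_add, ha, hb, map_add, map_add,
      Matrix.add_mulVec]
  | single g c =>
    rw [eigenAlg, latticeAlg, MonoidAlgebra.lift_single, MonoidAlgebra.lift_single, map_zsmul,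
      LinearMap.smul_apply, Matrix.smul_mulVec, SetLike.val_smul_of_tower, D.coe_eigenAction]
    rfl

/-- A relation holding modulo `p ^ M` on the model has trace divisible by `p ^ M` on every
eigen-lattice. -/
theorem dvd_trace_eigenAlg {M : ℕ} {y : ℤ[AbsGal]} (hy : galAlg D M y = 0) :
    (p : O) ^ M ∣ LinearMap.trace O _ (eigenAlg D ι θ y) := by
  classical
  rw [galAlg_eq] at hy
  have hmem : ∀ i j, latticeAlg D y i j ∈ Ideal.span {(p : ℤ_[p]) ^ M} := fun i j => by
    rw [← PadicInt.ker_toZModPow, RingHom.mem_ker]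
    exact congrFun (congrFun hy i) j
  choose Z hZ using fun i j => Ideal.mem_span_singleton'.mp (hmem i j)
  have hp : (p : O) ^ M ≠ 0 :=
    pow_ne_zero _ (Nat.cast_ne_zero.2 (Fact.out : p.Prime).ne_zero)
  have hL : ι.mapMatrix (latticeAlg D y) = (p : O) ^ M • (Matrix.of Z).map ι := by
    ext i j
    simp [← hZ i j, mul_comm]
  have hw : ∀ v : GaloisReps.eigenspace D.hecke θ, ∃ w,
      eigenAlg D ι θ y v = (p : O) ^ M • w := by
    intro v
    have hval : (eigenAlg D ι θ y v : Fin D.d → O) =
        (p : O) ^ M • ((Matrix.of Z).map ι).mulVec (v : Fin D.d → O) := by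
      rw [coe_eigenAlg, hL, Matrix.smul_mulVec]
    have hmem' := (GaloisReps.mem_eigenspace D.hecke θ _).1 (eigenAlg D ι θ y v).2
    refine ⟨⟨((Matrix.of Z).map ι).mulVec (v : Fin D.d → O),
      (GaloisReps.mem_eigenspace D.hecke θ _).2 fun a => ?_⟩, Subtype.ext hval⟩
    have h := hmem' a
    rw [hval, Matrix.mulVec_smul, smul_comm] at h
    exact smul_right_injective _ hp h
  rw [← Ideal.mem_span_singleton]
  refine GaloisReps.trace_mem_of_forall_mem _ _ fun v => ?_
  obtain ⟨w, hw⟩ := hw v
  rw [hw]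
  exact Submodule.smul_mem_smul (Ideal.mem_span_singleton_self _) Submodule.mem_top

end Model

/-- Equal traces on group elements give equal traces on the group ring. -/
theorem trace_lift_eq {A B K W : Type} [CommRing A] [IsLocalRing A] [CommRing B] [CommRing K]
    [AddCommGroup W] [Module B W] (ρ : GaloisRepAdic A) (r : AbsGal →* Module.End B W)
    (f : A →+* K) (j : B →+* K)
    (h : ∀ g, f (LinearMap.trace A ρ.V (ρ.ρ g)) = j (LinearMap.trace B W (r g)))
    (y : ℤ[AbsGal]) :
    f (LinearMap.trace A ρ.V (repAlg ρ y)) =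
      j (LinearMap.trace B W (MonoidAlgebra.lift ℤ _ AbsGal r y)) := by
  induction y using MonoidAlgebra.induction_linear with
  | zero => simp only [map_zero]
  | add a b ha hb => simp only [map_add, ha, hb]
  | single g c =>
    rw [GaloisReps.repAlg_single, MonoidAlgebra.lift_single, map_zsmul, map_zsmul, map_zsmul,
      map_zsmul, h]

variable {O : Type} [CommRing O] [IsDomain O] [IsDiscreteValuationRing O]
  [IsAdicComplete (maximalIdeal O) O] [Finite (ResidueField O)] [CharZero O]
  {p : ℕ} [Fact p.Prime]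
  {L : ℕ} [NeZero L] {Δ : Type} [CommGroup Δ] [Finite Δ] {ψ : (ZMod L)ˣ →* Δ} {S : Finset ℕ}
  {abar : ℕ → ResidueField O}
  {H : HeckeModule L ψ S abar} {hS : ∀ q : ℕ, q.Prime → q ∣ L → q ∈ S}
  [IsLocalRing H.algebra] {D : ∀ (M : ℕ) [NeZero M], HeckeGaloisModel M p}
  {pt : ∀ θ : H.algebra →ₐ[O] KBar O, Point (p := p) H hS θ.toRingHom} (G : Glued D pt)

/-- A group ring element vanishes modulo `p ^ N` on every model of level dividing `L ^ 2`. -/
def KillsModels (D : ∀ (M : ℕ) [NeZero M], HeckeGaloisModel M p) (L N : ℕ) (y : ℤ[AbsGal]) :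
    Prop :=
  ∀ (M : ℕ) [NeZero M], M ∣ L ^ 2 → galAlg (D M) N y = 0

omit [IsAdicComplete (maximalIdeal O) O] [Finite (ResidueField O)] [CharZero O] [NeZero L]
  [Finite Δ] in
theorem Glued.trace_repAlg (θ : H.algebra →ₐ[O] KBar O) (y : ℤ[AbsGal]) :
    θ (LinearMap.trace H.algebra G.rep.V (repAlg G.rep y)) =
      (pt θ).j (LinearMap.trace (pt θ).R _
        (eigenAlg (D (pt θ).M) (pt θ).ι (pt θ).θ' y)) :=
  trace_lift_eq G.rep ((D (pt θ).M).eigenAction (pt θ).ι (pt θ).θ') θ.toRingHom (pt θ).j
    (fun g => by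
      refine (congrArg θ.toRingHom (G.trace_rep g)).trans ?_
      exact (G.trace_eq θ g).trans ((pt θ).trace_rep D g)) y

omit [IsAdicComplete (maximalIdeal O) O] [Finite (ResidueField O)] [CharZero O] [NeZero L]
    [Finite Δ] in
theorem Glued.small_trace {N : ℕ} {y : ℤ[AbsGal]} (hy : KillsModels D L N y) :
    Small p H N (LinearMap.trace H.algebra G.rep.V (repAlg G.rep y)) := fun θ => by
  obtain ⟨r, hr⟩ := dvd_trace_eigenAlg (D (pt θ).M) (pt θ).ι (pt θ).θ'
    (hy _ (pt θ).dvd)
  refine ⟨(pt θ).j r, (pt θ).isIntegral_j r, ?_⟩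
  rw [G.trace_repAlg, hr, map_mul, map_pow, map_natCast]

variable (hp : (p : O) ∈ maximalIdeal O) (hΔ : IsPGroup p Δ)

include hp hΔ in
omit [NeZero L] in
/-- Relations on the models hold in the glued representation. -/
theorem Glued.exists_transfer (n : ℕ) :
    ∃ N, ∀ y : ℤ[AbsGal], KillsModels D L N y → ∀ v : G.rep.V,
      repAlg G.rep y v ∈ maximalIdeal H.algebra ^ n • (⊤ : Submodule H.algebra G.rep.V) := by
  obtain ⟨N, hN⟩ := exists_saturation_algebra (H := H) hp hΔ n
  refine ⟨N, fun y hy v => Submodule.smul_mono_left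
    ((Ideal.span_singleton_le_iff_mem _).2 (Ideal.pow_mem_pow (natCast_mem hp) n)) ?_⟩
  set I : Ideal H.algebra := Ideal.span {(p : H.algebra) ^ n}
  let b : Basis (Fin 2) H.algebra G.rep.V := Pi.basisFun H.algebra (Fin 2)
  set X := LinearMap.toMatrixAlgEquiv b (repAlg G.rep y) with hX
  have hR : ∀ g, LinearMap.toMatrixAlgEquiv b (G.rep.ρ g) = G.R g := fun g => by
    show LinearMap.toMatrix (Pi.basisFun H.algebra (Fin 2)) (Pi.basisFun H.algebra (Fin 2))
      (Matrix.toLinAlgEquiv' (G.R g)) = _
    rw [LinearMap.toMatrix_eq_toMatrix']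
    exact LinearMap.toMatrix'_toLin' (G.R g)
  have h1 : ∀ Y : Deform.M2 H.algebra, Matrix.trace (Y * X) ∈ I := by
    intro Y
    have hY : Y ∈ Submodule.span H.algebra (Set.range G.R) := by rw [G.span_eq_top]; trivial
    induction hY using Submodule.span_induction with
    | mem Y hY =>
      obtain ⟨g, rfl⟩ := hY
      have h := hN _ (G.small_trace (N := N) (y := MonoidAlgebra.single g 1 * y) fun M _ hM => by
        rw [map_mul, hy M hM, mul_zero])
      rw [map_mul, GaloisReps.repAlg_single, one_smul,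
        LinearMap.trace_eq_matrix_trace H.algebra b, LinearMap.toMatrix_mul] at h
      rw [← hR g]
      exact h
    | zero => rw [zero_mul, Matrix.trace_zero]; exact I.zero_mem
    | add x y _ _ hx hy => rw [add_mul, Matrix.trace_add]; exact I.add_mem hx hy
    | smul c x _ hx => rw [smul_mul_assoc, Matrix.trace_smul]; exact I.mul_mem_left _ hx
  rw [← b.sum_repr v, map_sum]
  refine Submodule.sum_mem _ fun j _ => ?_
  rw [map_smul]
  refine Submodule.smul_mem _ _ ?_
  rw [← b.sum_repr (repAlg G.rep y (b j))]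
  refine Submodule.sum_mem _ fun i _ => Submodule.smul_mem_smul ?_ Submodule.mem_top
  rw [← LinearMap.toMatrixAlgEquiv_apply b (repAlg G.rep y) i j, ← hX]
  have h := h1 (Matrix.single j i 1)
  rw [Matrix.trace_fin_two] at h
  fin_cases i <;> fin_cases j <;>
    simpa [Matrix.mul_apply, Fin.sum_univ_two, Matrix.single] using h

/-- An equivariant image of the group ring detecting the relations on finitely many models. -/
theorem exists_evaluation (hX : ∀ (M : ℕ) [NeZero M] (N : ℕ), M ∣ L ^ 2 →
      Nonempty (GalOrder p (ModelLevel (D M) N))) (N : ℕ) (W : Type) [Finite W]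
    (s : Finset ℕ) :
    ∃ (X : Type) (_ : AddCommGroup X) (_ : DistribMulAction AbsGal X) (_ : Finite X),
      Nonempty (GalOrder p X) ∧ ∃ F : (W → ℤ[AbsGal]) →+ X,
        (∀ (σ : AbsGal) x, F (fun w => MonoidAlgebra.single σ 1 * x w) = σ • F x) ∧
        ∀ x, F x = 0 → ∀ (M : ℕ) [NeZero M], M ∈ s → M ∣ L ^ 2 → ∀ w,
          galAlg (D M) N (x w) = 0 := by
  classical
  induction s using Finset.induction_on with
  | empty =>
    have : NeZero (L ^ 2) := ⟨pow_ne_zero 2 (NeZero.ne L)⟩
    obtain ⟨O₀⟩ := hX (L ^ 2) N dvd_rfl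
    obtain ⟨O₁⟩ := GaloisReps.nonempty_galOrder_fin O₀ 0
    exact ⟨Fin 0 → ModelLevel (D (L ^ 2)) N, inferInstance, inferInstance, inferInstance, ⟨O₁⟩,
      0, fun σ x => (smul_zero σ).symm, fun _ _ M _ hM => absurd hM (Finset.notMem_empty M)⟩
  | insert M s _ ih =>
    obtain ⟨X, _, _, _, ⟨OX⟩, F, hF, hker⟩ := ih
    by_cases hM : M ∣ L ^ 2
    · have : NeZero M := ⟨fun h => pow_ne_zero 2 (NeZero.ne L) (Nat.eq_zero_of_zero_dvd (h ▸ hM))⟩
      obtain ⟨O₁⟩ := hX M N hM
      obtain ⟨O₂⟩ := GaloisReps.nonempty_galOrder_pi O₁ (W × Fin (D M).d)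
      let F₁ : (W → ℤ[AbsGal]) →+ (W × Fin (D M).d → ModelLevel (D M) N) :=
        { toFun := fun x wj => ((fun i => galAlg (D M) N (x wj.1) i wj.2) :)
          map_zero' := by funext wj i; simp; rfl
          map_add' := fun x y => by funext wj i; simp; rfl }
      refine ⟨(W × Fin (D M).d → ModelLevel (D M) N) × X, inferInstance, inferInstance,
        inferInstance, ⟨O₂.prod OX⟩, F₁.prod F, fun σ x => Prod.ext ?_ (hF σ x),
        fun x hx M' _ hM' hdvd w => ?_⟩
      · funext wj
        show (fun i => galAlg (D M) N (MonoidAlgebra.single σ 1 * x wj.1) i wj.2) =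
          (galLevel (D M) N σ).mulVec (fun i => galAlg (D M) N (x wj.1) i wj.2)
        rw [map_mul, GaloisReps.galAlg_single, one_smul]
        funext i
        rw [Matrix.mul_apply]
        rfl
      · rcases Finset.mem_insert.1 hM' with rfl | hM'
        · ext i j
          exact congrFun (congrFun (congrArg Prod.fst hx) (w, j)) i
        · exact hker x (congrArg Prod.snd hx) M' hM' hdvd w
    · refine ⟨X, inferInstance, inferInstance, inferInstance, ⟨OX⟩, F, hF,
        fun x hx M' _ hM' hdvd => hker x hx M' ?_ hdvd⟩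
      exact (Finset.mem_insert.1 hM').resolve_left fun h => hM (h ▸ hdvd)

include hp hΔ in
/-- The glued representation is flat at `p` when the levels of the models carry Galois orders. -/
theorem Glued.isFlatAt [IsLocalHom (algebraMap O H.algebra)]
    (hX : ∀ (M : ℕ) [NeZero M] (N : ℕ), M ∣ L ^ 2 →
      Nonempty (GalOrder p (ModelLevel (D M) N))) : G.rep.IsFlatAt p := by
  classical
  have hres := finite_residueField_algebra (H := H) (residue_algebraMap_surjective H hp hΔ)
  refine EC.Rep.isFlatAt_of_galOrder G.rep p hres fun I hI => ?_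
  -- each finite level must be a quotient of a module with a Galois order
  obtain ⟨n, hn⟩ := IsLocalRing.exists_maximalIdeal_pow_le_of_isArtinianRing_quotient I
  obtain ⟨N, hN⟩ := G.exists_transfer hp hΔ n
  set W := G.rep.V ⧸ (I • (⊤ : Submodule H.algebra G.rep.V))
  have : Finite W := Module.finite_of_finite (H.algebra ⧸ I)
  have := Fintype.ofFinite W
  let q : G.rep.V →ₗ[H.algebra] W := (I • (⊤ : Submodule H.algebra G.rep.V)).mkQ
  choose lift hlift using Submodule.mkQ_surjective (I • (⊤ : Submodule H.algebra G.rep.V))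
  -- evaluate the group ring on finitely many levels of the models
  obtain ⟨X, _, _, _, ⟨OX⟩, F₁, hF₁, hker₁⟩ := exists_evaluation hX N W (L ^ 2).divisors
  let F₂ : (W → ℤ[AbsGal]) →+ W :=
    { toFun := fun x => q (∑ w, repAlg G.rep (x w) (lift w))
      map_zero' := by simp
      map_add' := fun x y => by simp [Finset.sum_add_distrib] }
  -- what vanishes there vanishes on the level of the glued representation
  have hker : F₁.ker ≤ F₂.ker := by
    intro x hx
    rw [AddMonoidHom.mem_ker] at hx ⊢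
    refine (Submodule.Quotient.mk_eq_zero _).mpr (Submodule.sum_mem _ fun w _ =>
      Submodule.smul_mono hn le_rfl (hN (x w) (fun M _ hM => hker₁ x hx M
        (Nat.mem_divisors.2 ⟨hM, pow_ne_zero 2 (NeZero.ne L)⟩) hM w) _))
  let L' : AbsGal → (W → ℤ[AbsGal]) → (W → ℤ[AbsGal]) :=
    fun σ x w => MonoidAlgebra.single σ 1 * x w
  have hL₁ : ∀ σ x, F₁ (L' σ x) = σ • F₁ x := hF₁
  have hL₂ : ∀ σ x, F₂ (L' σ x) = G.rep.levelAction I σ (F₂ x) := by
    intro σ x
    show q (∑ w, repAlg G.rep (MonoidAlgebra.single σ 1 * x w) (lift w)) =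
      G.rep.levelAction I σ (q (∑ w, repAlg G.rep (x w) (lift w)))
    simp only [map_mul, GaloisReps.repAlg_single, one_smul, Module.End.mul_apply, ← map_sum]
    rfl
  have hstable : ∀ (σ : AbsGal) (z : F₁.range), σ • (z : X) ∈ F₁.range := by
    rintro σ ⟨_, x, rfl⟩
    exact ⟨L' σ x, hL₁ σ x⟩
  let : DistribMulAction AbsGal F₁.range :=
    { smul := fun σ z => ⟨σ • (z : X), hstable σ z⟩
      one_smul := fun z => Subtype.ext (one_smul AbsGal (z : X))
      mul_smul := fun σ τ z => Subtype.ext (mul_smul σ τ (z : X))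
      smul_zero := fun σ => Subtype.ext (smul_zero σ)
      smul_add := fun σ z z' => Subtype.ext (smul_add σ (z : X) (z' : X)) }
  -- so that level is an equivariant quotient of the image
  let e := QuotientAddGroup.quotientKerEquivRange F₁
  let π : F₁.range →+ W := (QuotientAddGroup.lift F₁.ker F₂ hker).comp e.symm.toAddMonoidHom
  have hπ : ∀ x, π ⟨F₁ x, x, rfl⟩ = F₂ x := fun x => by
    have : e.symm ⟨F₁ x, x, rfl⟩ = QuotientAddGroup.mk x := e.injective (by
      rw [AddEquiv.apply_symm_apply]; exact Subtype.ext rfl)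
    show QuotientAddGroup.lift F₁.ker F₂ hker (e.symm ⟨F₁ x, x, rfl⟩) = _
    rw [this]
    rfl
  refine ⟨F₁.range, inferInstance, inferInstance, inferInstance,
    OX.restrict F₁.range.subtype Subtype.val_injective (fun σ z => rfl), π, fun w => ?_, ?_⟩
  · refine ⟨⟨F₁ (Pi.single w 1), _, rfl⟩, (hπ _).trans ?_⟩
    show q (∑ w', repAlg G.rep ((Pi.single w 1 : W → ℤ[AbsGal]) w') (lift w')) = w
    rw [Finset.sum_eq_single w (fun w' _ h => by simp [Pi.single_eq_of_ne h])
      (fun h => absurd (Finset.mem_univ w) h), Pi.single_eq_same, map_one, Module.End.one_apply]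
    exact hlift w
  · rintro σ ⟨_, x, rfl⟩
    refine Eq.trans ?_ ((hL₂ σ x).trans (congrArg _ (hπ x).symm))
    rw [← hπ]
    exact congrArg π (Subtype.ext (hL₁ σ x).symm)

end Fermat.Agent.RT.Glue
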