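import Mathlib

/-!
# The algebraic closure of a `p`-adic field is isomorphic to `ℂ`
-/

set_option autoImplicit false

noncomputable section

open Cardinal IsLocalRing

namespace Fermat.Agent.RT.Glue

theorem continuum_le_padicInt (p : ℕ) [Fact p.Prime] : 𝔠 ≤ #ℤ_[p] := by
  rw [← IsFractionRing.cardinalMk (R := ℤ_[p]) ℚ_[p]]
  exact continuum_le_cardinal_of_nontriviallyNormedField ℚ_[p]

variable (O : Type) [CommRing O] [IsDomain O] [IsDiscreteValuationRing O]
  [IsAdicComplete (maximalIdeal O) O] [Finite (ResidueField O)] [CharZero O]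

omit [IsAdicComplete (maximalIdeal O) O] [CharZero O] in
/-- A complete discrete valuation ring with finite residue field has at most continuum many
elements. -/
theorem cardinalMk_le_continuum : #O ≤ 𝔠 := by
  have hfin : ∀ n : ℕ, Finite (O ⧸ maximalIdeal O ^ n) := fun n => by
    have : Finite (O ⧸ maximalIdeal O) := inferInstanceAs (Finite (ResidueField O))
    exact Ideal.finite_quotient_pow (IsNoetherian.noetherian (maximalIdeal O)) n
  let f : O → ∀ n : ℕ, O ⧸ maximalIdeal O ^ n := fun x n => Ideal.Quotient.mk _ x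
  have hf : Function.Injective f := fun x y h => by
    refine sub_eq_zero.1 (IsHausdorff.haus' (I := maximalIdeal O) _ fun n => ?_)
    rw [SModEq.zero, smul_eq_mul, Ideal.mul_top]
    exact Ideal.Quotient.eq.1 (congrFun h n)
  have hcount : ∀ n : ℕ, #(O ⧸ maximalIdeal O ^ n) ≤ ℵ₀ := fun n =>
    haveI := hfin n
    mk_le_aleph0
  calc #O ≤ #(∀ n : ℕ, O ⧸ maximalIdeal O ^ n) := mk_le_of_injective hf
    _ = Cardinal.prod fun n : ℕ => #(O ⧸ maximalIdeal O ^ n) := mk_pi _
    _ ≤ Cardinal.prod fun _ : ℕ => ℵ₀ := prod_le_prod _ _ hcount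
    _ = ℵ₀ ^ ℵ₀ := by simp
    _ = 𝔠 := aleph0_power_aleph0

omit [IsAdicComplete (maximalIdeal O) O] in
/-- The algebraic closure of the fraction field is isomorphic to `ℂ`. -/
theorem nonempty_ringEquiv_complex {p : ℕ} [Fact p.Prime] (ι : ℤ_[p] →+* O) :
    Nonempty (AlgebraicClosure (FractionRing O) ≃+* ℂ) := by
  set K := AlgebraicClosure (FractionRing O)
  have : CharZero (FractionRing O) :=
    charZero_of_injective_algebraMap (IsFractionRing.injective O (FractionRing O))
  have : CharZero K := charZero_of_injective_algebraMap (algebraMap (FractionRing O) K).injective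
  have hι : Function.Injective ι := by
    refine (injective_iff_map_eq_zero _).2 fun a ha => by_contra fun h0 => ?_
    rw [PadicInt.unitCoeff_spec h0, map_mul, map_pow, map_natCast] at ha
    rcases mul_eq_zero.1 ha with h | h
    · exact ((PadicInt.unitCoeff h0).isUnit.map ι).ne_zero h
    · exact pow_ne_zero _ (Nat.cast_ne_zero.2 (Fact.out : p.Prime).ne_zero) h
  have hlow : 𝔠 ≤ #K :=
    calc 𝔠 ≤ #ℤ_[p] := continuum_le_padicInt p
      _ ≤ #O := mk_le_of_injective hι
      _ = #(FractionRing O) := (IsFractionRing.cardinalMk (R := O) _).symm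
      _ ≤ #K := mk_le_of_injective (algebraMap (FractionRing O) K).injective
  have hup : #K ≤ 𝔠 :=
    calc #K ≤ max #(FractionRing O) ℵ₀ := Algebra.IsAlgebraic.cardinalMk_le_max _ K
      _ ≤ 𝔠 := max_le ((IsFractionRing.cardinalMk (R := O) _).trans_le (cardinalMk_le_continuum O))
          aleph0_le_continuum
  refine IsAlgClosed.ringEquiv_of_equiv_of_charZero (aleph0_lt_continuum.trans_le hlow) ?_
  exact Cardinal.eq.1 ((le_antisymm hup hlow).trans mk_complex.symm)

end Fermat.Agent.RT.Glue
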