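import Fermat.Agent.RT.Glue.Approx
import Fermat.Agent.RT.Glue.Core
import Fermat.Agent.Deform.Matrix
import Fermat.Agent.Deform.Burnside

/-!
# The representation over the Hecke algebra of a Hecke module

`Glued` is a representation over the Hecke algebra with the traces, determinants and kernels of
the points. `exists_glued` makes one from the pointwise traces (`RT/Glue/Approx`) by the criterion
of `RT/Glue/Core`.
-/

set_option autoImplicit false

noncomputable section

open IsLocalRing Module

namespace Fermat.Agent.RT.Glue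

open GaloisReps (AbsGal HeckeGaloisModel)

variable {O : Type} [CommRing O] [IsDomain O] [IsDiscreteValuationRing O]
  [IsAdicComplete (maximalIdeal O) O] [Finite (ResidueField O)] [CharZero O]
  {p : ℕ} [Fact p.Prime]
  {L : ℕ} [NeZero L] {Δ : Type} [CommGroup Δ] [Finite Δ] {ψ : (ZMod L)ˣ →* Δ} {S : Finset ℕ}
  {abar : ℕ → ResidueField O}
  (hp : (p : O) ∈ maximalIdeal O) {H : HeckeModule L ψ S abar}
  {hS : ∀ q : ℕ, q.Prime → q ∣ L → q ∈ S}

/-- A continuous matrix representation over the Hecke algebra whose trace, determinant and kernel at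
every point are those of the representation of the newform there, with cyclotomic determinant and
images spanning all matrices. -/
structure Glued [IsLocalRing H.algebra] (D : ∀ (M : ℕ) [NeZero M], HeckeGaloisModel M p)
    (pt : ∀ θ : H.algebra →ₐ[O] KBar O, Point (p := p) H hS θ.toRingHom) where
  R : AbsGal →* Deform.M2 H.algebra
  cont : Deform.IsCont R
  trace_eq : ∀ (θ : H.algebra →ₐ[O] KBar O) σ, θ (R σ).trace = ((pt θ).rep D σ).trace
  det_eq : ∀ (θ : H.algebra →ₐ[O] KBar O) σ, θ (R σ).det = ((pt θ).rep D σ).det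
  map_eq_one : ∀ (θ : H.algebra →ₐ[O] KBar O) σ,
    (R σ).map θ = 1 ↔ (pt θ).rep D σ = 1
  det_congr : ∀ (n : ℕ) (σ : AbsGal) (a : ℕ),
    (∀ μ : AlgebraicClosure ℚ, μ ^ p ^ n = 1 → σ μ = μ ^ a) →
      (R σ).det - a ∈ Ideal.span {(p : H.algebra) ^ n}
  span_eq_top : Submodule.span H.algebra (Set.range R) = ⊤

/-- Matrices spanning residually span. -/
theorem span_range_eq_top {A : Type} [CommRing A] [IsLocalRing A] {G : Type}
    (R : G → Matrix (Fin 2) (Fin 2) A)
    (h : Submodule.span (ResidueField A) (Set.range fun g => (R g).map (residue A)) = ⊤) :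
    Submodule.span A (Set.range R) = ⊤ := by
  classical
  refine top_le_iff.mp (Submodule.le_of_le_smul_of_le_jacobson_bot (I := maximalIdeal A)
    Module.Finite.fg_top (IsLocalRing.maximalIdeal_le_jacobson _) fun X _ => ?_)
  let f : Matrix (Fin 2) (Fin 2) A →ₗ[A] Matrix (Fin 2) (Fin 2) (ResidueField A) :=
    LinearMap.mapMatrix (Algebra.linearMap A (ResidueField A))
  have h1 : f X ∈ Submodule.span (ResidueField A) (Set.range fun g => (R g).map (residue A)) := by
    rw [h]; trivial
  rw [← Submodule.restrictScalars_mem A, Submodule.restrictScalars_span A (ResidueField A)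
    IsLocalRing.residue_surjective,
    show (Set.range fun g => (R g).map (residue A)) = f '' Set.range R by
      rw [← Set.range_comp]; rfl, ← Submodule.map_span] at h1
  obtain ⟨Y, hY, hYX⟩ := h1
  rw [← add_sub_cancel Y X]
  refine Submodule.add_mem_sup hY ?_
  rw [Matrix.matrix_eq_sum_single (X - Y)]
  refine Submodule.sum_mem _ fun i _ => Submodule.sum_mem _ fun j _ => ?_
  rw [show Matrix.single i j ((X - Y) i j) = (X - Y) i j • Matrix.single i j (1 : A) by
    rw [Matrix.smul_single, smul_eq_mul, mul_one]]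
  refine Submodule.smul_mem_smul ?_ Submodule.mem_top
  rw [← residue_eq_zero_iff, Matrix.sub_apply, map_sub, sub_eq_zero]
  exact (congrFun (congrFun hYX i) j).symm

/-- The residual representation in the reduced standard basis. -/
theorem toMatrix_residual_toRep {A : Type} [CommRing A] [IsLocalRing A] {R : AbsGal →* Deform.M2 A}
    (hR : Deform.IsCont R) :
    ∃ B : Basis (Fin 2) (ResidueField A) (Deform.toRep R hR).residual.V, ∀ σ,
      LinearMap.toMatrix B B ((Deform.toRep R hR).residual.ρ σ) = (R σ).map (residue A) := by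
  let b : Basis (Fin 2) A (Deform.toRep R hR).V := Pi.basisFun A (Fin 2)
  let B : Basis (Fin 2) (ResidueField A) (Deform.toRep R hR).residual.V :=
    b.baseChange (ResidueField A)
  refine ⟨B, fun σ => Matrix.ext fun i j => ?_⟩
  show LinearMap.toMatrix (b.baseChange (ResidueField A)) (b.baseChange (ResidueField A))
    (((Deform.toRep R hR).ρ σ).baseChange (ResidueField A)) i j = _
  rw [LinearMap.toMatrix_apply, Basis.baseChange_apply, LinearMap.baseChange_tmul,
    Basis.baseChange_repr_tmul, Algebra.smul_def, mul_one, ResidueField.algebraMap_eq,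
    Matrix.map_apply]
  refine congrArg (residue A) ?_
  show (Pi.basisFun A (Fin 2)).repr (Matrix.toLinAlgEquiv' (R σ) (Pi.basisFun A (Fin 2) j)) i = _
  simp

/-- A base changed residual representation in the base changed basis. -/
theorem toMatrix_baseChangeAlong {k k' : Type} [Field k] [Field k'] (φ : k →+* k')
    (r : ResidualGaloisRep k) (b : Basis (Fin 2) k r.V) :
    ∃ B : Basis (Fin 2) k' (r.baseChangeAlong φ).V, ∀ σ,
      LinearMap.toMatrix B B ((r.baseChangeAlong φ).ρ σ) =
        (LinearMap.toMatrix b b (r.ρ σ)).map φ := by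
  let : Algebra k k' := φ.toAlgebra
  let B : Basis (Fin 2) k' (r.baseChangeAlong φ).V := b.baseChange k'
  refine ⟨B, fun σ => Matrix.ext fun i j => ?_⟩
  show LinearMap.toMatrix (b.baseChange k') (b.baseChange k') ((r.ρ σ).baseChange k') i j = _
  rw [LinearMap.toMatrix_apply, Basis.baseChange_apply, LinearMap.baseChange_tmul,
    Basis.baseChange_repr_tmul, Algebra.smul_def, mul_one, Matrix.map_apply,
    LinearMap.toMatrix_apply]
  rfl

/-- Residual representations with the same matrices are equivalent. -/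
theorem isEquiv_of_toMatrix {k : Type} [Field k] {r₁ r₂ : ResidualGaloisRep k}
    (B₁ : Basis (Fin 2) k r₁.V) (B₂ : Basis (Fin 2) k r₂.V)
    (h : ∀ σ, LinearMap.toMatrix B₁ B₁ (r₁.ρ σ) = LinearMap.toMatrix B₂ B₂ (r₂.ρ σ)) :
    r₁.IsEquiv r₂ := by
  let e : r₁.V ≃ₗ[k] r₂.V := B₁.equiv B₂ (Equiv.refl _)
  have he : ∀ i, e (B₁ i) = B₂ i := fun i => B₁.equiv_apply i B₂ (Equiv.refl _)
  refine ⟨⟨e, fun σ x => ?_⟩⟩
  refine LinearMap.congr_fun (f := (e : r₁.V →ₗ[k] r₂.V) ∘ₗ r₁.ρ σ)
    (g := r₂.ρ σ ∘ₗ (e : r₁.V →ₗ[k] r₂.V)) (B₁.ext fun j => ?_) x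
  simp only [LinearMap.comp_apply, LinearEquiv.coe_coe, he]
  rw [← B₁.sum_repr (r₁.ρ σ (B₁ j)), ← B₂.sum_repr (r₂.ρ σ (B₂ j)), map_sum]
  refine Finset.sum_congr rfl fun i _ => ?_
  rw [map_smul, he, ← LinearMap.toMatrix_apply, ← LinearMap.toMatrix_apply, h]

variable (hΔ : IsPGroup p Δ) (hp2 : p ≠ 2) (hpS : p ∈ S)
  {ρbar : ResidualGaloisRep (ResidueField O)} (habs : ρbar.IsAbsolutelyIrreducible)
  (hbar : HasCharpolys S abar ρbar)
  [IsLocalRing H.algebra] [IsLocalHom (algebraMap O H.algebra)]
  (D : ∀ (M : ℕ) [NeZero M], HeckeGaloisModel M p)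
  (pt : ∀ θ : H.algebra →ₐ[O] KBar O, Point (p := p) H hS θ.toRingHom)

include hp in
omit [IsAdicComplete (maximalIdeal O) O] [Finite (ResidueField O)] [CharZero O] [NeZero L]
  [IsLocalHom (algebraMap O H.algebra)] in
/-- `2` is a unit in the Hecke algebra for odd `p`. -/
theorem isUnit_two (hp2 : p ≠ 2) : IsUnit (2 : H.algebra) := by
  by_contra h2
  have h2m : (2 : H.algebra) ∈ maximalIdeal H.algebra := h2
  obtain ⟨k, hk⟩ := (Fact.out : p.Prime).odd_of_ne_two hp2
  refine (maximalIdeal.isMaximal H.algebra).ne_top ((Ideal.eq_top_iff_one _).2 ?_)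
  have h1 := sub_mem (natCast_mem (H := H) hp) (Ideal.mul_mem_right (k : H.algebra) _ h2m)
  rw [hk] at h1
  simp at h1

include hp hΔ hp2 hpS habs hbar in
/-- The glued representation exists. -/
theorem exists_glued : ∃ G : Glued D pt, (Deform.toRep G.R G.cont).residual.IsEquiv
    (ρbar.baseChangeAlong (ResidueField.map (algebraMap O H.algebra))) := by
  classical
  have := isAdicComplete_algebra H
  choose tA htA htres using exists_trace hp hΔ D pt hpS hbar
  let b : Basis (Fin 2) (ResidueField O) ρbar.V :=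
    Module.finBasisOfFinrankEq _ _ ρbar.finrank_eq
  let φ := ResidueField.map (algebraMap O H.algebra)
  let rbar : AbsGal →* Deform.M2 (ResidueField H.algebra) :=
    Deform.mapM φ ((LinearMap.toMatrixAlgEquiv b).toMonoidHom.comp ρbar.ρ)
  have hrbar : ∀ σ, rbar σ = (LinearMap.toMatrixAlgEquiv b (ρbar.ρ σ)).map φ := fun σ => rfl
  have hres : ∀ σ, (rbar σ).trace = residue H.algebra (tA σ) := fun σ => by
    rw [htres, hrbar, LinearMap.trace_eq_matrix_trace (ResidueField O) b,
      AddMonoidHom.map_trace φ]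
    rfl
  -- the residual images span the matrices, by absolute irreducibility
  have hspan : Submodule.span (ResidueField H.algebra) (Set.range rbar) = ⊤ := by
    refine eq_top_iff.2 fun X _ => ?_
    have hφ : Function.Surjective φ := fun y => by
      obtain ⟨a, rfl⟩ := residue_algebraMap_surjective H hp hΔ y
      exact ⟨residue O a, ResidueField.map_residue _ _⟩
    choose f hf using hφ
    rw [show X = (X.map f).map φ by ext i j; exact (hf _).symm]
    have hY : X.map f ∈ Submodule.span (ResidueField O)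
        (Set.range fun σ => LinearMap.toMatrixAlgEquiv b (ρbar.ρ σ)) := by
      rw [Deform.span_matrix_eq_top ρbar habs b]; trivial
    generalize X.map f = Y at hY ⊢
    induction hY using Submodule.span_induction with
    | mem Y hY => obtain ⟨σ, rfl⟩ := hY; exact Submodule.subset_span ⟨σ, hrbar σ⟩
    | zero => rw [Matrix.map_zero _ (map_zero φ)]; exact zero_mem _
    | add Y Z _ _ hY hZ => rw [Matrix.map_add _ (map_add φ)]; exact add_mem hY hZ
    | smul c Y _ hY =>
      rw [show (c • Y).map φ = φ c • Y.map φ from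
        Matrix.ext fun i j => by simp [Matrix.map_apply]]
      exact Submodule.smul_mem _ _ hY
  have hπ : ∀ x : H.algebra, (∀ θ : H.algebra →ₐ[O] KBar O, θ.toRingHom x = 0) → x = 0 :=
    fun x hx => eq_zero_of_forall_point hx
  -- glue the representations at the points along their traces
  obtain ⟨R, hR, hRtr, hRdet, hRone, hRI⟩ := exists_glue
    (fun _ : H.algebra →ₐ[O] KBar O => KBar O) (fun θ => θ.toRingHom)
    (fun θ => (pt θ).rep D) tA rbar (isUnit_two hp hp2)
    hπ (fun θ σ => htA σ θ) hres hspan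
  -- the determinant, being known at the points
  choose c hc hc' using exists_det hp D pt
  have hdet : ∀ σ, (R σ).det = c σ := fun σ => sub_eq_zero.1 (eq_zero_of_forall_point fun θ => by
    rw [map_sub, sub_eq_zero, ← hc σ θ]
    exact hRdet θ σ)
  -- continuity: one field trivialises all models modulo `p ^ N`
  have hcont : Deform.IsCont R := by
    intro n
    obtain ⟨N, hN⟩ := exists_saturation_algebra (H := H) hp hΔ n
    obtain ⟨F, hF, hlev⟩ := exists_levelField (L := L) D N
    refine ⟨F, hF, fun σ hσ i j => ?_⟩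
    have hle : Ideal.span {(p : H.algebra) ^ n} ≤ maximalIdeal H.algebra ^ n :=
      (Ideal.span_singleton_le_iff_mem _).2 (Ideal.pow_mem_pow (natCast_mem hp) n)
    refine hle (hRI _ σ (fun g => hN _ fun θ => ?_) i j)
    have h1 : (((D (pt θ).M).gal (g⁻¹ * (σ * g))).map (PadicInt.toZModPow N)) = 1 := by
      have h : (PadicInt.toZModPow N).mapMatrix ((D (pt θ).M).gal σ) = 1 :=
        hlev σ hσ _ (pt θ).dvd
      show (PadicInt.toZModPow N).mapMatrix _ = 1
      rw [map_mul, map_mul, map_mul, map_mul, h, one_mul, ← map_mul, ← map_mul, inv_mul_cancel,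
        map_one, map_one]
    obtain ⟨r, hr, he⟩ := (pt θ).trace_congr D h1
    exact ⟨r, hr, by rw [map_sub, ← htA, ← htA, he]⟩
  refine ⟨⟨R, hcont, fun θ σ => ?_, hRdet, hRone, fun n σ a ha => ?_, ?_⟩, ?_⟩
  · rw [hRtr, htA]
  · rw [hdet]; exact hc' σ n a ha
  · exact span_range_eq_top _ (by simpa only [hR] using hspan)
  · obtain ⟨B, hB⟩ := toMatrix_baseChangeAlong φ ρbar b
    obtain ⟨B', hB'⟩ := toMatrix_residual_toRep hcont
    refine isEquiv_of_toMatrix (r₁ := (Deform.toRep R hcont).residual)
      (r₂ := ρbar.baseChangeAlong φ)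
      B' B fun σ => ?_
    rw [hB', hR, hB, hrbar]
    rfl

end Fermat.Agent.RT.Glue
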