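import Fermat.Agent.GaloisReps.Models
import Fermat.Agent.GaloisReps.Flat
import Fermat.Agent.FiniteFlat.TorsionOrder
import Fermat.Agent.Arith.Frobenius
import Fermat.Agent.NewformLocal.Results

/-!
# The models used for gluing, with their local properties
-/

set_option autoImplicit false

noncomputable section

namespace Fermat.Agent.RT.Glue

open GaloisReps (HeckeGaloisModel ModelLevel modelOfCongruence eichlerShimuraCongruence)

variable (p : ℕ) [Fact p.Prime]

/-- The models of the Jacobians. -/
def stdModel (M : ℕ) [NeZero M] : HeckeGaloisModel M p :=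
  modelOfCongruence (eichlerShimuraCongruence M p)

/-- At a prime `v ≠ p` exactly dividing the level the standard model is unipotent and satisfies
the toric square condition. -/
theorem stdModel_local {M : ℕ} [NeZero M] {v : ℕ} (hv : v.Prime) (hvp : v ≠ p) (hvM : v ∣ M)
    (h2 : ¬ v ^ 2 ∣ M) :
    NewformLocal.UnipotentAt (stdModel p M) v ∧ NewformLocal.ToricSquareAt (stdModel p M) v :=
  NewformLocal.local_inputs hv hvp hvM h2

/-- At a level prime to `p` the torsion of the standard model modulo `p ^ n` carries a
`ℤ_(p)`-order (finite flat structure). -/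
theorem stdModel_galOrder {M : ℕ} [NeZero M] (hpM : ¬ p ∣ M) (n : ℕ) :
    Nonempty (FiniteFlat.GalOrder p (ModelLevel (stdModel p M) n)) := by
  have hp : p.Prime := Fact.out
  have : NeZero (p ^ n) := ⟨pow_ne_zero _ hp.ne_zero⟩
  obtain ⟨A, hA⟩ := Arith.exists_liesOverPrime hp
  obtain ⟨O', -⟩ := FiniteFlat.exists_galOrder_torsion (N := M) hp hpM hA (p ^ n)
  exact GaloisReps.nonempty_galOrder_modelLevel
    (GaloisReps.torsionIso M p (GaloisReps.conjProperty M))
    (GaloisReps.torsionGalois M p (eichlerShimuraCongruence M p)) n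
    (X := FiniteFlat.TorsPt M (p ^ n))
    { toFun := fun x => x, map_zero' := rfl, map_add' := fun _ _ => rfl }
    (fun x y h => h) (fun σ x => rfl) O'

end Fermat.Agent.RT.Glue
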